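import Mathlib
import Fermat.Prelude.Def_EllipticCurve_FrobeniusTrace
import Fermat.Agent.S05.Inertia

set_option autoImplicit false

/-!
# The mod `p` cyclotomic character of `G_ℚ`: values on Frobenius lifts and on inertia.
-/

namespace Fermat.Agent.S29.Cyclo

open Fermat.Agent.S05

local notation "Qbar" => AlgebraicClosure ℚ
local notation "GQ" => (AlgebraicClosure ℚ ≃ₐ[ℚ] AlgebraicClosure ℚ)

section Frob

variable {K L : Type*} [Field K] [Field L] [Algebra K L]

theorem frob_valuation_sub_lt_one (A : ValuationSubring L) {σ : L ≃ₐ[K] L} {q : ℕ}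
    (hσ : A.IsFrobeniusAt σ q) {x : L} (hx : A.valuation x ≤ 1) :
    A.valuation (σ x - x ^ q) < 1 := by
  obtain ⟨hd, hfrob⟩ := hσ
  have hxA : x ∈ A := (A.valuation_le_one_iff x).mp hx
  have h1 := hfrob (IsLocalRing.residue A ⟨x, hxA⟩)
  rw [← IsLocalRing.ResidueField.residue_smul, ← map_pow] at h1
  have h2 : ((⟨σ, hd⟩ : A.decompositionSubgroup K) • (⟨x, hxA⟩ : A)) - (⟨x, hxA⟩ : A) ^ q
      ∈ IsLocalRing.maximalIdeal A := by
    rw [← IsLocalRing.residue_eq_zero_iff, map_sub, h1, sub_self]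
  rw [ValuationSubring.valuation_lt_one_iff] at h2
  exact h2

end Frob

section Roots

variable {L : Type*} [Field L]

theorem valuation_eq_one_of_pow_eq_one (A : ValuationSubring L) {x : L} {n : ℕ} (hn : n ≠ 0)
    (hx : x ^ n = 1) : A.valuation x = 1 := by
  have h := congrArg A.valuation hx
  rw [map_pow, map_one] at h
  exact (pow_eq_one_iff.mp h).resolve_right hn

theorem not_valuation_sub_one_lt_one (A : ValuationSubring L) {ℓ p : ℕ} (hℓ : ℓ.Prime)
    (hp : p.Prime) (hne : ℓ ≠ p) (hA : A.LiesOverPrime ℓ) {η : L} (hη : η ^ p = 1) (hη1 : η ≠ 1) :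
    ¬ A.valuation (η - 1) < 1 := by
  intro hlt
  have hprim : IsPrimitiveRoot η p := by
    have := Fact.mk hp
    have := orderOf_eq_prime hη hη1
    rw [← this]
    exact IsPrimitiveRoot.orderOf η
  have hsum : ∑ i ∈ Finset.range p, η ^ i = 0 := hprim.geom_sum_eq_zero hp.one_lt
  have hv : A.valuation η = 1 := valuation_eq_one_of_pow_eq_one A hp.ne_zero hη
  have hterm : ∀ i : ℕ, A.valuation (η ^ i - 1) < 1 := by
    intro i
    induction i with
    | zero => simp
    | succ i ih =>
      have : η ^ (i + 1) - 1 = η * (η ^ i - 1) + (η - 1) := by ring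
      rw [this]
      apply Valuation.map_add_lt _ _ hlt
      rw [map_mul, hv, one_mul]
      exact ih
  have hpsum : (p : L) = - ∑ i ∈ Finset.range p, (η ^ i - 1) := by
    rw [Finset.sum_sub_distrib, hsum]
    simp
  have hlt' : A.valuation (p : L) < 1 := by
    rw [hpsum, Valuation.map_neg]
    exact Valuation.map_sum_lt _ one_ne_zero (fun i _ => hterm i)
  have hnd : ¬ (ℓ : ℤ) ∣ (p : ℤ) := by
    intro h
    have := (Nat.prime_dvd_prime_iff_eq hℓ hp).mp (Int.natCast_dvd_natCast.mp h)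
    exact hne this
  have := valuation_intCast_eq_one A hℓ hA hnd
  rw [Int.cast_natCast] at this
  exact absurd this hlt'.ne

theorem eq_of_valuation_sub_lt_one (A : ValuationSubring L) {ℓ p : ℕ} (hℓ : ℓ.Prime)
    (hp : p.Prime) (hne : ℓ ≠ p) (hA : A.LiesOverPrime ℓ) {x y : L} (hx : x ^ p = 1)
    (hy : y ^ p = 1) (h : A.valuation (x - y) < 1) : x = y := by
  by_contra hxy
  have hy0 : y ≠ 0 := by
    rintro rfl
    rw [zero_pow hp.ne_zero] at hy
    exact zero_ne_one hy
  have h1 : (x / y) ^ p = 1 := by rw [div_pow, hx, hy, div_one]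
  have h2 : x / y ≠ 1 := by
    intro h3
    exact hxy ((div_eq_one_iff_eq hy0).mp h3)
  apply not_valuation_sub_one_lt_one A hℓ hp hne hA h1 h2
  have h3 : x / y - 1 = (x - y) / y := by field_simp
  rw [h3, map_div₀, valuation_eq_one_of_pow_eq_one A hp.ne_zero hy, div_one]
  exact h

end Roots

section Cyc

variable (p : ℕ) [Fact p.Prime]

theorem card_roots : Nat.card (rootsOfUnity p Qbar) = p :=
  haveI : NeZero (p : Qbar) := ⟨Nat.cast_ne_zero.mpr (NeZero.ne p)⟩
  HasEnoughRootsOfUnity.natCard_rootsOfUnity Qbar p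

/-- The mod `p` cyclotomic character. -/
noncomputable def cyc : GQ →* (ZMod p)ˣ :=
  (modularCyclotomicCharacter Qbar (card_roots p)).comp (MulSemiringAction.toRingAut GQ Qbar)

theorem cyc_eq_of_forall (σ : GQ) (c : ℕ) (h : ∀ x : Qbar, x ^ p = 1 → σ x = x ^ c) :
    ((cyc p σ : (ZMod p)ˣ) : ZMod p) = (c : ZMod p) := by
  symm
  apply modularCyclotomicCharacter.unique
  intro t ht
  have ht' : (t : Qbar) ^ p = 1 := by
    have := (mem_rootsOfUnity _ _).mp ht
    rw [← Units.val_pow_eq_pow_val, this, Units.val_one]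
  have h1 : (MulSemiringAction.toRingAut GQ Qbar σ) (t : Qbar) = σ (t : Qbar) := rfl
  rw [h1, h _ ht', ZMod.val_natCast]
  exact pow_eq_pow_mod c ht'

theorem cyc_frob {ℓ : ℕ} (hℓ : ℓ.Prime) (hne : ℓ ≠ p) (A : ValuationSubring Qbar)
    (hA : A.LiesOverPrime ℓ) {σ : GQ} (hσ : A.IsFrobeniusAt σ ℓ) :
    ((cyc p σ : (ZMod p)ˣ) : ZMod p) = (ℓ : ZMod p) := by
  have hp : p.Prime := Fact.out
  apply cyc_eq_of_forall
  intro x hx
  apply eq_of_valuation_sub_lt_one A hℓ hp hne hA
  · rw [← map_pow, hx, map_one]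
  · rw [← pow_mul, mul_comm, pow_mul, hx, one_pow]
  · exact frob_valuation_sub_lt_one A hσ (valuation_eq_one_of_pow_eq_one A hp.ne_zero hx).le

theorem cyc_inertia {ℓ : ℕ} (hℓ : ℓ.Prime) (hne : ℓ ≠ p) (A : ValuationSubring Qbar)
    (hA : A.LiesOverPrime ℓ) {σ : GQ} (hσ : σ ∈ A.inertiaSubgroupIn ℚ) :
    cyc p σ = 1 := by
  have hp : p.Prime := Fact.out
  apply Units.ext
  have := cyc_eq_of_forall p σ 1 (fun x hx => by
    rw [pow_one]
    apply eq_of_valuation_sub_lt_one A hℓ hp hne hA
    · rw [← map_pow, hx, map_one]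
    · exact hx
    · exact inertia_valuation_sub_lt_one A hσ (valuation_eq_one_of_pow_eq_one A hp.ne_zero hx).le)
  simpa using this

/-- The field generated by the `p`-th roots of unity. -/
noncomputable def cycField : IntermediateField ℚ Qbar :=
  IntermediateField.adjoin ℚ {x : Qbar | x ^ p = 1}

theorem cycField_finite : FiniteDimensional ℚ (cycField p) := by
  have hp : p.Prime := Fact.out
  have hfin : {x : Qbar | x ^ p = 1}.Finite := by
    have h1 : {x : Qbar | x ^ p = 1} ⊆ ((Polynomial.nthRoots p (1 : Qbar)).toFinset : Set Qbar) := by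
      intro x hx
      simp only [Finset.mem_coe, Multiset.mem_toFinset]
      exact (Polynomial.mem_nthRoots hp.pos).mpr hx
    exact (Finset.finite_toSet _).subset h1
  have := hfin.to_subtype
  apply IntermediateField.finiteDimensional_adjoin
  intro x hx
  have hx' : x ^ p = 1 := hx
  exact IsIntegral.of_pow hp.pos (by rw [hx']; exact isIntegral_one)

theorem cyc_eq_one_of_fixes {σ : GQ} (h : ∀ x ∈ cycField p, σ x = x) : cyc p σ = 1 := by
  apply Units.ext
  have := cyc_eq_of_forall p σ 1 (fun x hx => by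
    rw [pow_one]
    exact h x (IntermediateField.subset_adjoin ℚ _ hx))
  simpa using this

end Cyc

end Fermat.Agent.S29.Cyclo
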