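import Mathlib
import Fermat.Agent.S49.Basic
import Fermat.Agent.S22

set_option autoImplicit false

/-!
# Normalised eigenforms are eigenvectors of the Hecke algebra; the eigencharacter; integrality.
-/

open ModularFormClass CongruenceSubgroup

namespace Fermat.Agent.S29.Eigen

open Fermat.Agent.S49

local notation "Zbar" => integralClosure ℤ ℂ

variable {N : ℕ} {g : CuspForm (Gamma0 N) 2}

theorem qCoeff_prime_mul (hg : g.IsNormalizedEigenform) {ℓ : ℕ} (hℓ : ℓ.Prime) (hℓN : ¬ ℓ ∣ N)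
    (n : ℕ) :
    qCoeff ⇑g (ℓ * n) + (ℓ : ℂ) * (if ℓ ∣ n then qCoeff ⇑g (n / ℓ) else 0)
      = qCoeff ⇑g ℓ * qCoeff ⇑g n := by
  rcases Nat.eq_zero_or_pos n with rfl | hn
  · simp [qCoeff_zero_index]
  obtain ⟨e, m, hm, rfl⟩ := Nat.exists_eq_pow_mul_and_not_dvd hn.ne' ℓ hℓ.ne_one
  have hcop : ∀ j : ℕ, (ℓ ^ j).Coprime m := fun j =>
    Nat.Coprime.pow_left j ((Nat.Prime.coprime_iff_not_dvd hℓ).mpr hm)
  cases e with
  | zero =>
    have hnd : ¬ ℓ ∣ ℓ ^ 0 * m := by simpa using hm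
    rw [if_neg hnd, mul_zero, add_zero, pow_zero, one_mul]
    have := hg.qCoeff_mul_of_coprime ℓ m (by simpa using hcop 1)
    exact this
  | succ e =>
    have hd : ℓ ∣ ℓ ^ (e + 1) * m := Dvd.dvd.mul_right (dvd_pow_self ℓ (Nat.succ_ne_zero e)) m
    have hdiv : ℓ ^ (e + 1) * m / ℓ = ℓ ^ e * m := by
      rw [pow_succ', mul_assoc, Nat.mul_div_cancel_left _ hℓ.pos]
    have hmul : ℓ * (ℓ ^ (e + 1) * m) = ℓ ^ (e + 2) * m := by ring
    rw [if_pos hd, hdiv, hmul, hg.qCoeff_mul_of_coprime _ _ (hcop (e + 2)),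
      hg.qCoeff_mul_of_coprime _ _ (hcop e), hg.qCoeff_mul_of_coprime _ _ (hcop (e + 1)),
      hg.qCoeff_prime_pow_of_not_dvd ℓ e hℓ hℓN]
    ring

theorem qCoeff_prime_mul_of_dvd (hg : g.IsNormalizedEigenform) {q : ℕ} (hq : q.Prime) (hqN : q ∣ N)
    (n : ℕ) : qCoeff ⇑g (q * n) = qCoeff ⇑g q * qCoeff ⇑g n := by
  rcases Nat.eq_zero_or_pos n with rfl | hn
  · simp [qCoeff_zero_index]
  obtain ⟨e, m, hm, rfl⟩ := Nat.exists_eq_pow_mul_and_not_dvd hn.ne' q hq.ne_one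
  have hcop : ∀ j : ℕ, (q ^ j).Coprime m := fun j =>
    Nat.Coprime.pow_left j ((Nat.Prime.coprime_iff_not_dvd hq).mpr hm)
  cases e with
  | zero =>
    rw [pow_zero, one_mul]
    exact hg.qCoeff_mul_of_coprime q m (by simpa using hcop 1)
  | succ e =>
    have hmul : q * (q ^ (e + 1) * m) = q ^ (e + 2) * m := by ring
    rw [hmul, hg.qCoeff_mul_of_coprime _ _ (hcop (e + 2)),
      hg.qCoeff_mul_of_coprime _ _ (hcop (e + 1)), hg.qCoeff_prime_pow_of_dvd q e hq hqN]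
    ring

theorem heckeTLin_eigen (hg : g.IsNormalizedEigenform) {ℓ : ℕ} (hℓ : ℓ.Prime) (hℓN : ¬ ℓ ∣ N) :
    CuspForm.heckeTLin 2 hℓ hℓN g = qCoeff ⇑g ℓ • g := by
  apply ext_qCoeff
  intro n
  rw [qCoeff_heckeTLin, qCoeff_smul, qCoeff_prime_mul hg hℓ hℓN]

theorem heckeULin_eigen [NeZero N] (hg : g.IsNormalizedEigenform) {q : ℕ} (hq : q.Prime)
    (hqN : q ∣ N) : CuspForm.heckeULin 2 hqN g = qCoeff ⇑g q • g := by
  apply ext_qCoeff
  intro n
  rw [qCoeff_heckeULin hq, qCoeff_smul, qCoeff_prime_mul_of_dvd hg hq hqN]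

theorem exists_eigenvalue [NeZero N] (hg : g.IsNormalizedEigenform) (S : Set ℕ)
    (t : Module.End ℂ (CuspForm (Gamma0 N) 2)) (ht : t ∈ CuspForm.heckeAlgebra N 2 S) :
    ∃ c : ℂ, t g = c • g := by
  induction ht using Algebra.adjoin_induction with
  | mem t ht =>
    rcases ht with ⟨ℓ, hℓ, hℓN, -, rfl⟩ | ⟨q, hqN, hq, -, rfl⟩
    · exact ⟨_, heckeTLin_eigen hg hℓ hℓN⟩
    · exact ⟨_, heckeULin_eigen hg hq hqN⟩
  | algebraMap n =>
    refine ⟨(n : ℂ), ?_⟩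
    rw [Module.algebraMap_end_apply]
    ext z
    simp
  | add s t _ _ hs ht =>
    obtain ⟨c, hc⟩ := hs
    obtain ⟨c', hc'⟩ := ht
    exact ⟨c + c', by rw [LinearMap.add_apply, hc, hc', add_smul]⟩
  | mul s t _ _ hs ht =>
    obtain ⟨c, hc⟩ := hs
    obtain ⟨c', hc'⟩ := ht
    exact ⟨c * c', by rw [Module.End.mul_apply, hc', map_smul, hc, smul_smul, mul_comm]⟩

theorem apply_eq_qCoeff_smul [NeZero N] (hg : g.IsNormalizedEigenform) (S : Set ℕ)
    (t : CuspForm.heckeAlgebra N 2 S) :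
    (t : Module.End ℂ (CuspForm (Gamma0 N) 2)) g
      = qCoeff ⇑((t : Module.End ℂ (CuspForm (Gamma0 N) 2)) g) 1 • g := by
  obtain ⟨c, hc⟩ := exists_eigenvalue hg S t t.2
  rw [hc, qCoeff_smul, hg.qCoeff_one, mul_one]

/-- The eigencharacter of a normalised eigenform. -/
noncomputable def eigenChar [NeZero N] (hg : g.IsNormalizedEigenform) (S : Set ℕ) :
    CuspForm.heckeAlgebra N 2 S →+* ℂ where
  toFun t := qCoeff ⇑((t : Module.End ℂ (CuspForm (Gamma0 N) 2)) g) 1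
  map_one' := by simp [hg.qCoeff_one]
  map_zero' := by
    rw [ZeroMemClass.coe_zero, LinearMap.zero_apply]
    exact qCoeff_zero_form 1
  map_add' s t := by
    rw [Subalgebra.coe_add, LinearMap.add_apply]
    exact qCoeff_add _ _ 1
  map_mul' s t := by
    simp only [Subalgebra.coe_mul, Module.End.mul_apply]
    rw [apply_eq_qCoeff_smul hg S t, map_smul, qCoeff_smul, qCoeff_smul, hg.qCoeff_one, mul_one,
      mul_comm]

theorem eigenChar_apply [NeZero N] (hg : g.IsNormalizedEigenform) (S : Set ℕ)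
    (t : CuspForm.heckeAlgebra N 2 S) :
    (t : Module.End ℂ (CuspForm (Gamma0 N) 2)) g = eigenChar hg S t • g :=
  apply_eq_qCoeff_smul hg S t

theorem eigenChar_T [NeZero N] (hg : g.IsNormalizedEigenform) (S : Set ℕ) {ℓ : ℕ} (hℓ : ℓ.Prime)
    (hℓN : ¬ ℓ ∣ N) (hℓS : ℓ ∉ S) :
    eigenChar hg S (CuspForm.heckeAlgebra.T hℓ hℓN hℓS) = qCoeff ⇑g ℓ := by
  show qCoeff ⇑(CuspForm.heckeTLin 2 hℓ hℓN g) 1 = _
  rw [heckeTLin_eigen hg hℓ hℓN, qCoeff_smul, hg.qCoeff_one, mul_one]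

theorem isIntegral_eigenChar [NeZero N] (hg : g.IsNormalizedEigenform) (S : Set ℕ)
    (t : CuspForm.heckeAlgebra N 2 S) : IsIntegral ℤ (eigenChar hg S t) := by
  have hfin : Module.Finite ℤ (CuspForm.heckeAlgebra N 2 S) := Fermat.Agent.S22.result N 2 S
  have hint : IsIntegral ℤ t := Algebra.IsIntegral.isIntegral t
  exact hint.map (eigenChar hg S).toIntAlgHom

theorem isIntegral_qCoeff [NeZero N] (hg : g.IsNormalizedEigenform) {ℓ : ℕ} (hℓ : ℓ.Prime)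
    (hℓN : ¬ ℓ ∣ N) : IsIntegral ℤ (qCoeff ⇑g ℓ) := by
  rw [← eigenChar_T hg ∅ hℓ hℓN (Set.notMem_empty ℓ)]
  exact isIntegral_eigenChar hg ∅ _

/-- The eigencharacter with values in the ring of algebraic integers. -/
noncomputable def eigenCharZ [NeZero N] (hg : g.IsNormalizedEigenform) (S : Set ℕ) :
    CuspForm.heckeAlgebra N 2 S →+* Zbar :=
  (eigenChar hg S).codRestrict (integralClosure ℤ ℂ).toSubring (isIntegral_eigenChar hg S)

theorem coe_eigenCharZ [NeZero N] (hg : g.IsNormalizedEigenform) (S : Set ℕ)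
    (t : CuspForm.heckeAlgebra N 2 S) : ((eigenCharZ hg S t : Zbar) : ℂ) = eigenChar hg S t := rfl

end Fermat.Agent.S29.Eigen
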