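import Mathlib

set_option autoImplicit false

/-!
# Cutting a Hecke-Galois module down to a finite faithful submodule

If a ring `R` acts on a module `M` through finitely many maps and a group acts `R`-linearly through
finitely many maps, there is a finite stable submodule with the same annihilator.
-/

namespace Fermat.Agent.S29.FiniteSub

theorem finite_range_of_factor {α β γ : Type*} [Finite β] (f : α → γ) (r : α → β)
    (h : ∀ x y, r x = r y → f x = f y) : (Set.range f).Finite := by
  have : Finite (Set.range f) :=
    Finite.of_injective (fun c : Set.range f => r c.2.choose) (by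
      intro c d hcd
      have h1 := h _ _ hcd
      rw [c.2.choose_spec, d.2.choose_spec] at h1
      exact Subtype.ext h1)
  exact Set.toFinite _

section Span

variable {R : Type*} [Ring R] {M : Type*} [AddCommGroup M] [Module R M]

/-- If `R` acts through finitely many maps, finitely generated submodules are finite. -/
theorem finite_span (hact : (Set.range (fun (x : R) (m : M) => x • m)).Finite) {s : Set M}
    (hs : s.Finite) : ((Submodule.span R s : Submodule R M) : Set M).Finite := by
  classical
  obtain ⟨t, rfl⟩ := hs.exists_finset_coe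
  have : Finite (Set.range (fun (x : R) (m : M) => x • m)) := hact.to_subtype
  let Φ : (t → Set.range (fun (x : R) (m : M) => x • m)) → M := fun F => ∑ a : t, (F a).1 a.1
  refine (Set.finite_range Φ).subset ?_
  intro x hx
  rw [SetLike.mem_coe, Submodule.mem_span_finset] at hx
  obtain ⟨f, -, rfl⟩ := hx
  refine ⟨fun a => ⟨_, ⟨f a.1, rfl⟩⟩, ?_⟩
  show ∑ a : t, f a.1 • a.1 = _
  exact Finset.sum_coe_sort t (fun a => f a • a)

end Span

theorem finite_range_zsmul {E : Type*} [AddCommGroup E] {n : ℕ} (hn : 0 < n)
    (h : ∀ e : E, n • e = 0) : (Set.range (fun (x : ℤ) (e : E) => x • e)).Finite := by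
  refine ((Finset.range n).finite_toSet.image (fun (i : ℕ) (e : E) => (i : ℤ) • e)).subset ?_
  rintro _ ⟨x, rfl⟩
  have hn' : (n : ℤ) ≠ 0 := by exact_mod_cast hn.ne'
  have hpos : 0 ≤ x % n := Int.emod_nonneg x hn'
  refine ⟨(x % n).toNat, ?_, ?_⟩
  · rw [Finset.coe_range, Set.mem_Iio]
    have : x % n < n := Int.emod_lt_of_pos x (by exact_mod_cast hn)
    omega
  · funext e
    show (((x % n).toNat : ℕ) : ℤ) • e = x • e
    rw [Int.toNat_of_nonneg hpos]
    conv_rhs => rw [← Int.emod_add_mul_ediv x n]
    rw [add_smul, mul_smul, natCast_zsmul, h, add_zero]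

variable {R : Type*} [CommRing R] {M : Type*} [AddCommGroup M] [Module R M]

/-- **The finite faithful stable submodule.** -/
theorem exists_finite_faithful {G : Type*} [Group G] (ρ : G →* Module.End R M)
    (hρ : (Set.range ρ).Finite) (hact : (Set.range (fun (x : R) (m : M) => x • m)).Finite) :
    ∃ M' : Submodule R M, Finite M' ∧ (∀ g, ∀ m ∈ M', ρ g m ∈ M') ∧
      ∀ x : R, (∀ m ∈ M', x • m = 0) → ∀ m : M, x • m = 0 := by
  classical
  -- witnesses
  let wit : (M → M) → M := fun f => if h : ∃ m, f m ≠ 0 then h.choose else 0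
  have hwit : ∀ f : M → M, (∃ m, f m ≠ 0) → f (wit f) ≠ 0 := by
    intro f h
    simp only [wit, dif_pos h]
    exact h.choose_spec
  let Y : Set M := wit '' Set.range (fun (x : R) (m : M) => x • m)
  have hY : Y.Finite := hact.image _
  let Z : Set M := Set.image2 (fun (e : Module.End R M) (y : M) => e y) (Set.range ρ) Y
  have hZ : Z.Finite := hρ.image2 _ hY
  refine ⟨Submodule.span R Z, (finite_span hact hZ).to_subtype, ?_, ?_⟩
  · intro g
    have : Submodule.span R Z ≤ (Submodule.span R Z).comap (ρ g) := by
      rw [Submodule.span_le]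
      rintro _ ⟨_, ⟨h, rfl⟩, y, hy, rfl⟩
      apply Submodule.subset_span
      refine ⟨ρ (g * h), ⟨_, rfl⟩, y, hy, ?_⟩
      show ρ (g * h) y = ρ g (ρ h y)
      rw [map_mul, Module.End.mul_apply]
    exact fun m hm => this hm
  · intro x hx m
    by_contra hne
    have h1 := hwit (fun m : M => x • m) ⟨m, hne⟩
    apply h1
    apply hx
    apply Submodule.subset_span
    refine ⟨ρ 1, ⟨_, rfl⟩, wit (fun m : M => x • m), ⟨_, ⟨x, rfl⟩, rfl⟩, ?_⟩
    show ρ 1 _ = _
    rw [map_one, Module.End.one_apply]

end Fermat.Agent.S29.FiniteSub
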