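import Mathlib

set_option autoImplicit false

/-!
# The quadratic-relation lemma

`G` a group, `k` an algebraically closed field, `W` a nonzero finite dimensional representation
such that every `g` satisfies `g ^ 2 - t g * g + d g = 0` with `d` a character.  Then there is a
two dimensional representation whose characteristic polynomials are `X ^ 2 - t g X + d g`.
Valid in every characteristic.
-/

namespace Fermat.Agent.S29.QuadRel

open Polynomial Module

section Basic

variable {G : Type*} [Group G] {k : Type*} [Field k]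
  {U : Type*} [AddCommGroup U] [Module k U]

/-- Every group element satisfies a quadratic relation with multiplicative constant term. -/
def IsQuad (r : G →* Module.End k U) (d : G →* kˣ) (t : G → k) : Prop :=
  ∀ g, r g * r g - t g • r g + (d g : k) • (1 : Module.End k U) = 0

/-- No nontrivial invariant subspace. -/
def IsIrr (r : G →* Module.End k U) : Prop :=
  ∀ P : Submodule k U, (∀ g, ∀ x ∈ P, r g x ∈ P) → P = ⊥ ∨ P = ⊤

variable {r : G →* Module.End k U} {d : G →* kˣ} {t : G → k}

theorem IsQuad.inv (h : IsQuad r d t) (g : G) :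
    (d g : k) • r g⁻¹ = t g • (1 : Module.End k U) - r g := by
  have h1 : r g * r g⁻¹ = 1 := by rw [← map_mul, mul_inv_cancel, map_one]
  have h2 := congrArg (fun f => f * r g⁻¹) (h g)
  simp only [add_mul, sub_mul, zero_mul, smul_mul_assoc, one_mul, mul_assoc, h1, mul_one] at h2
  have h3 : (d g : k) • r g⁻¹ = - (r g - t g • (1 : Module.End k U)) := by
    rw [eq_neg_iff_add_eq_zero, add_comm]; exact h2
  rw [h3]; abel

theorem IsQuad.anticomm (h : IsQuad r d t) (g g' : G) :
    r g * r g' + r g' * r g =
      (t (g * g') - t g * t g') • (1 : Module.End k U) + t g' • r g + t g • r g' := by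
  have h1 := h.inv (g * g')
  have h2 : ((d (g * g') : kˣ) : k) • r (g * g')⁻¹ = ((d g' : k) • r g'⁻¹) * ((d g : k) • r g⁻¹) := by
    rw [mul_inv_rev, map_mul, map_mul, smul_mul_smul_comm, Units.val_mul, mul_comm (d g : k)]
  rw [h2, h.inv, h.inv, map_mul] at h1
  have h3 : (t g' • (1 : Module.End k U) - r g') * (t g • (1 : Module.End k U) - r g)
      = (t g * t g') • (1 : Module.End k U) - t g' • r g - t g • r g' + r g' * r g := by
    simp only [sub_mul, mul_sub, smul_mul_assoc, mul_smul_comm, one_mul, mul_one]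
    module
  rw [h3] at h1
  linear_combination (norm := module) h1

theorem IsQuad.apply_eigen (h : IsQuad r d t) {g : G} {u : U} {α : k} (hu : r g u = α • u)
    (g' : G) :
    r g (r g' u) = (t g - α) • r g' u + (t (g * g') - t g * t g' + t g' * α) • u := by
  have h1 := congrArg (fun f : Module.End k U => f u) (h.anticomm g g')
  simp only [LinearMap.add_apply, Module.End.mul_apply, LinearMap.smul_apply,
    Module.End.one_apply, hu, map_smul] at h1
  linear_combination (norm := module) h1

theorem IsIrr.span_orbit (hr : IsIrr r) {u : U} (hu : u ≠ 0) :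
    Submodule.span k (Set.range fun g => r g u) = ⊤ := by
  have hinv : ∀ g, ∀ x ∈ Submodule.span k (Set.range fun g => r g u),
      r g x ∈ Submodule.span k (Set.range fun g => r g u) := by
    intro g x hx
    induction hx using Submodule.span_induction with
    | mem x hx =>
      obtain ⟨g', rfl⟩ := hx
      exact Submodule.subset_span ⟨g * g', by simp⟩
    | zero => simp
    | add x y _ _ hx hy => rw [map_add]; exact Submodule.add_mem _ hx hy
    | smul c x _ hx => rw [map_smul]; exact Submodule.smul_mem _ c hx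
  rcases hr _ hinv with h | h
  · exfalso
    apply hu
    have : u ∈ Submodule.span k (Set.range fun g => r g u) :=
      Submodule.subset_span ⟨1, by simp⟩
    rw [h] at this
    simpa using this
  · exact h

theorem IsQuad.image_in_line (h : IsQuad r d t) (hr : IsIrr r) {g : G} {u : U} {α : k}
    (hu0 : u ≠ 0) (hu : r g u = α • u) (x : U) :
    ∃ c : k, r g x - (t g - α) • x = c • u := by
  have hx : x ∈ Submodule.span k (Set.range fun g => r g u) := by
    rw [hr.span_orbit hu0]; trivial
  induction hx using Submodule.span_induction with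
  | mem x hx =>
    obtain ⟨g', rfl⟩ := hx
    refine ⟨t (g * g') - t g * t g' + t g' * α, ?_⟩
    rw [h.apply_eigen hu g']; abel
  | zero => exact ⟨0, by simp⟩
  | add x y _ _ hx hy =>
    obtain ⟨c, hc⟩ := hx
    obtain ⟨c', hc'⟩ := hy
    refine ⟨c + c', ?_⟩
    rw [add_smul, ← hc, ← hc', map_add, smul_add]; abel
  | smul a x _ hx =>
    obtain ⟨c, hc⟩ := hx
    refine ⟨a * c, ?_⟩
    rw [mul_smul, ← hc, map_smul, smul_sub, smul_comm]

theorem IsIrr.finrank_eq_one_of_scalar [FiniteDimensional k U] [Nontrivial U] (hr : IsIrr r)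
    (hs : ∀ g, ∃ α : k, r g = α • (1 : Module.End k U)) : finrank k U = 1 := by
  obtain ⟨u, hu⟩ := exists_ne (0 : U)
  have hinv : ∀ g, ∀ x ∈ Submodule.span k {u}, r g x ∈ Submodule.span k {u} := by
    intro g x hx
    obtain ⟨α, hα⟩ := hs g
    rw [hα]
    simpa using Submodule.smul_mem _ α hx
  rcases hr _ hinv with h | h
  · exfalso
    apply hu
    have : u ∈ Submodule.span k {u} := Submodule.mem_span_singleton_self u
    rw [h] at this
    simpa using this
  · rw [← finrank_top k U, ← h]
    exact finrank_span_singleton hu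

theorem IsQuad.scalar_of_two_lt [IsAlgClosed k] [FiniteDimensional k U] [Nontrivial U]
    (h : IsQuad r d t) (hr : IsIrr r) (hn : 2 < finrank k U) (g : G) :
    ∃ α : k, r g = α • (1 : Module.End k U) := by
  obtain ⟨α, hα⟩ := Module.End.exists_eigenvalue (r g)
  obtain ⟨u, hu⟩ := hα.exists_hasEigenvector
  have hu0 : u ≠ 0 := hu.2
  have hgu : r g u = α • u := hu.apply_eq_smul
  refine ⟨α, ?_⟩
  set f : Module.End k U := r g - (t g - α) • (1 : Module.End k U) with hf
  have hrange : LinearMap.range f ≤ Submodule.span k {u} := by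
    rintro _ ⟨x, rfl⟩
    obtain ⟨c, hc⟩ := h.image_in_line hr hu0 hgu x
    rw [Submodule.mem_span_singleton]
    exact ⟨c, by rw [← hc, hf]; simp⟩
  have hrk : finrank k (LinearMap.range f) ≤ 1 :=
    (Submodule.finrank_mono hrange).trans (finrank_span_singleton hu0).le
  have hker : 2 ≤ finrank k (LinearMap.ker f) := by
    have := LinearMap.finrank_range_add_finrank_ker f
    omega
  ext x
  by_contra hx
  have hy : r g x - α • x ≠ 0 := by
    intro h0
    apply hx
    rw [sub_eq_zero] at h0
    simpa using h0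
  have hle : LinearMap.ker f ≤ Submodule.span k {r g x - α • x} := by
    intro v hv
    by_cases hv0 : v = 0
    · rw [hv0]; exact Submodule.zero_mem _
    have hgv : r g v = (t g - α) • v := by
      have : f v = 0 := hv
      rw [hf] at this
      simpa [sub_eq_zero] using this
    obtain ⟨c, hc⟩ := h.image_in_line hr hv0 hgv x
    have hc0 : c ≠ 0 := by
      rintro rfl
      apply hy
      rw [← zero_smul k v, ← hc]
      congr 2
      ring
    rw [Submodule.mem_span_singleton]
    refine ⟨c⁻¹, ?_⟩
    have : r g x - α • x = c • v := by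
      rw [← hc]; congr 2; ring
    rw [this, smul_smul, inv_mul_cancel₀ hc0, one_smul]
  have := (Submodule.finrank_mono hle).trans (finrank_span_singleton hy).le
  omega

theorem IsQuad.finrank_le_two [IsAlgClosed k] [FiniteDimensional k U] [Nontrivial U]
    (h : IsQuad r d t) (hr : IsIrr r) : finrank k U ≤ 2 := by
  by_contra hn
  have hn' : 2 < finrank k U := by omega
  have := hr.finrank_eq_one_of_scalar (h.scalar_of_two_lt hr hn')
  omega

end Basic

section Mat

variable {G : Type*} [Group G] {k : Type*} [Field k]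

theorem mat_cayley (M : Matrix (Fin 2) (Fin 2) k) :
    M * M - M.trace • M + M.det • (1 : Matrix (Fin 2) (Fin 2) k) = 0 := by
  ext i j
  fin_cases i <;> fin_cases j <;>
    simp [Matrix.mul_apply, Fin.sum_univ_two, Matrix.trace_fin_two, Matrix.det_fin_two] <;> ring

theorem mat_trace_det_of_not_scalar {M : Matrix (Fin 2) (Fin 2) k} {a b : k}
    (hM : M * M - a • M + b • (1 : Matrix (Fin 2) (Fin 2) k) = 0)
    (hs : ¬ ∃ c : k, M = c • (1 : Matrix (Fin 2) (Fin 2) k)) :
    M.trace = a ∧ M.det = b := by
  have h1 : (M.trace - a) • M = (M.det - b) • (1 : Matrix (Fin 2) (Fin 2) k) := by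
    linear_combination (norm := module) hM - mat_cayley M
  have ha : M.trace = a := by
    by_contra hne
    apply hs
    refine ⟨(M.trace - a)⁻¹ * (M.det - b), ?_⟩
    rw [mul_smul, ← h1, smul_smul, inv_mul_cancel₀ (sub_ne_zero.mpr hne), one_smul]
  refine ⟨ha, ?_⟩
  rw [ha, sub_self, zero_smul] at h1
  have h2 := congrFun (congrFun h1 0) 0
  simp at h2
  exact (sub_eq_zero.mp h2.symm)

theorem mat_trace_det (ρ : G →* Matrix (Fin 2) (Fin 2) k) (d : G →* kˣ) (t : G → k)
    (h : ∀ g, ρ g * ρ g - t g • ρ g + (d g : k) • (1 : Matrix (Fin 2) (Fin 2) k) = 0)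
    (hns : ∃ g, ¬ ∃ c : k, ρ g = c • (1 : Matrix (Fin 2) (Fin 2) k)) (g : G) :
    (ρ g).trace = t g ∧ (ρ g).det = (d g : k) := by
  by_cases hg : ∃ c : k, ρ g = c • (1 : Matrix (Fin 2) (Fin 2) k)
  · obtain ⟨c, hc⟩ := hg
    obtain ⟨g', hg'⟩ := hns
    have hc0 : c ≠ 0 := by
      rintro rfl
      have h1 : ρ g * ρ g⁻¹ = 1 := by rw [← map_mul, mul_inv_cancel, map_one]
      rw [hc, zero_smul, zero_mul] at h1
      exact zero_ne_one h1
    have hprod : ρ (g * g') = c • ρ g' := by rw [map_mul, hc, smul_mul_assoc, one_mul]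
    have hns' : ¬ ∃ c' : k, ρ (g * g') = c' • (1 : Matrix (Fin 2) (Fin 2) k) := by
      rintro ⟨c', hc'⟩
      apply hg'
      refine ⟨c⁻¹ * c', ?_⟩
      rw [mul_smul, ← hc', hprod, smul_smul, inv_mul_cancel₀ hc0, one_smul]
    have h1 := (mat_trace_det_of_not_scalar (h (g * g')) hns').2
    have h2 := (mat_trace_det_of_not_scalar (h g') hg').2
    rw [hprod, Matrix.det_smul, h2, map_mul, Units.val_mul, Fintype.card_fin] at h1
    have hd : (d g : k) = c ^ 2 := by
      have hd' : (d g' : k) ≠ 0 := (d g').ne_zero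
      exact (mul_right_cancel₀ hd' h1).symm
    have h3 := congrFun (congrFun (h g) 0) 0
    rw [hc, hd] at h3
    simp at h3
    have ht : t g = 2 * c := by
      have : c * (2 * c - t g) = 0 := by linear_combination h3
      rcases mul_eq_zero.mp this with h0 | h0
      · exact absurd h0 hc0
      · linear_combination -h0
    constructor
    · rw [hc, ht, Matrix.trace_smul, Matrix.trace_one, Fintype.card_fin]
      simp [mul_comm]
    · rw [hc, hd, Matrix.det_smul, Matrix.det_one, Fintype.card_fin, mul_one]
  · exact mat_trace_det_of_not_scalar (h g) hg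

end Mat

section Main

variable {G : Type*} [Group G] {k : Type*} [Field k]
  {W : Type*} [AddCommGroup W] [Module k W]

/-- Restriction of a representation to an invariant subspace. -/
def restr (r : G →* Module.End k W) (U : Submodule k W) (hU : ∀ g, ∀ x ∈ U, r g x ∈ U) :
    G →* Module.End k U where
  toFun g := (r g).restrict (hU g)
  map_one' := by ext x; simp
  map_mul' g g' := by ext x; simp

@[simp] theorem restr_apply_coe (r : G →* Module.End k W) (U : Submodule k W)
    (hU : ∀ g, ∀ x ∈ U, r g x ∈ U) (g : G) (x : U) :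
    ((restr r U hU g x : U) : W) = r g x := rfl

theorem IsQuad.restr {r : G →* Module.End k W} {d : G →* kˣ} {t : G → k} (h : IsQuad r d t)
    (U : Submodule k W) (hU : ∀ g, ∀ x ∈ U, r g x ∈ U) : IsQuad (restr r U hU) d t := by
  intro g
  ext x
  have := congrArg (fun f : Module.End k W => f x) (h g)
  simpa using this

theorem restr_eq_one {r : G →* Module.End k W} (U : Submodule k W)
    (hU : ∀ g, ∀ x ∈ U, r g x ∈ U) {g : G} (hg : r g = 1) : restr r U hU g = 1 := by
  ext x
  simp [hg]

theorem exists_irr [FiniteDimensional k W] [Nontrivial W] (r : G →* Module.End k W) :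
    ∃ (U : Submodule k W) (hU : ∀ g, ∀ x ∈ U, r g x ∈ U), U ≠ ⊥ ∧ IsIrr (restr r U hU) := by
  classical
  have hex : ∃ n, ∃ U : Submodule k W, (∀ g, ∀ x ∈ U, r g x ∈ U) ∧ U ≠ ⊥ ∧ finrank k U = n :=
    ⟨_, ⊤, fun _ _ _ => trivial, top_ne_bot, rfl⟩
  obtain ⟨U, hU, hU0, hUn⟩ := Nat.find_spec hex
  refine ⟨U, hU, hU0, ?_⟩
  intro P hP
  by_cases hP0 : P = ⊥
  · exact Or.inl hP0
  right
  have hinv : ∀ g, ∀ x ∈ P.map U.subtype, r g x ∈ P.map U.subtype := by
    rintro g _ ⟨y, hy, rfl⟩
    exact ⟨restr r U hU g y, hP g y hy, rfl⟩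
  have hne : P.map U.subtype ≠ ⊥ := by
    intro h0
    apply hP0
    rw [Submodule.eq_bot_iff] at h0 ⊢
    intro y hy
    have := h0 (U.subtype y) ⟨y, hy, rfl⟩
    exact Subtype.ext this
  have hfr : finrank k (P.map U.subtype) = finrank k P :=
    LinearEquiv.finrank_eq (Submodule.equivMapOfInjective _ U.injective_subtype P).symm
  have hmin := Nat.find_min' hex ⟨P.map U.subtype, hinv, hne, rfl⟩
  rw [hfr] at hmin
  apply Submodule.eq_top_of_finrank_eq
  have := Submodule.finrank_le P
  omega

theorem exists_matrixRep [IsAlgClosed k] [FiniteDimensional k W] [Nontrivial W]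
    (r : G →* Module.End k W) (d : G →* kˣ) (t : G → k) (h : IsQuad r d t) :
    ∃ ρ : G →* Matrix (Fin 2) (Fin 2) k,
      (∀ g, (ρ g).charpoly = X ^ 2 - C (t g) * X + C (d g : k)) ∧
      (∀ g, r g = 1 → d g = 1 → ρ g = 1) := by
  classical
  obtain ⟨U, hU, hU0, hirr⟩ := exists_irr r
  have : Nontrivial U := Submodule.nontrivial_iff_ne_bot.mpr hU0
  have hq := h.restr U hU
  have hle := hq.finrank_le_two hirr
  have hpos : 0 < finrank k U := finrank_pos
  obtain h2 | h1 : finrank k U = 2 ∨ finrank k U = 1 := by omega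
  · -- two dimensional constituent
    let b := Module.finBasisOfFinrankEq k U h2
    let e := LinearMap.toMatrixAlgEquiv b
    let ρ : G →* Matrix (Fin 2) (Fin 2) k := (e : Module.End k U →* _).comp (restr r U hU)
    have hρ : ∀ g, ρ g = e (restr r U hU g) := fun g => rfl
    have hrel : ∀ g, ρ g * ρ g - t g • ρ g + (d g : k) • (1 : Matrix (Fin 2) (Fin 2) k) = 0 := by
      intro g
      have := congrArg e (hq g)
      simpa [hρ] using this
    have hns : ∃ g, ¬ ∃ c : k, ρ g = c • (1 : Matrix (Fin 2) (Fin 2) k) := by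
      by_contra hall
      push Not at hall
      have : finrank k U = 1 := by
        apply hirr.finrank_eq_one_of_scalar
        intro g
        obtain ⟨c, hc⟩ := hall g
        refine ⟨c, e.injective ?_⟩
        rw [← hρ, hc]; simp
      omega
    refine ⟨ρ, fun g => ?_, fun g hg _ => ?_⟩
    · obtain ⟨htr, hdet⟩ := mat_trace_det ρ d t hrel hns g
      rw [Matrix.charpoly_fin_two, htr, hdet]
    · rw [hρ, restr_eq_one U hU hg, map_one]
  · -- one dimensional constituent
    let b := Module.finBasisOfFinrankEq k U h1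
    let e := LinearMap.toMatrixAlgEquiv b
    let ψ : G → k := fun g => e (restr r U hU g) 0 0
    have hψ1 : ψ 1 = 1 := by simp [ψ]
    have hψmul : ∀ g g', ψ (g * g') = ψ g * ψ g' := by
      intro g g'
      simp [ψ, Matrix.mul_apply]
    have hψ0 : ∀ g, ψ g ≠ 0 := by
      intro g h0
      have := hψmul g g⁻¹
      rw [mul_inv_cancel, hψ1, h0, zero_mul] at this
      exact one_ne_zero this
    have hrel : ∀ g, ψ g * ψ g - t g * ψ g + (d g : k) = 0 := by
      intro g
      have := congrFun (congrFun (congrArg e (hq g)) 0) 0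
      simpa [ψ, Matrix.mul_apply] using this
    let ρ : G →* Matrix (Fin 2) (Fin 2) k :=
      { toFun := fun g => Matrix.diagonal ![ψ g, (d g : k) * (ψ g)⁻¹]
        map_one' := by
          ext i j
          fin_cases i <;> fin_cases j <;> simp [hψ1]
        map_mul' := fun g g' => by
          rw [Matrix.diagonal_mul_diagonal]
          congr 1
          ext i
          fin_cases i
          · simp [hψmul]
          · simp [hψmul]; ring }
    have hρ : ∀ g, ρ g = Matrix.diagonal ![ψ g, (d g : k) * (ψ g)⁻¹] := fun g => rfl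
    refine ⟨ρ, fun g => ?_, fun g hg hd => ?_⟩
    · rw [Matrix.charpoly_fin_two, hρ, Matrix.trace_fin_two, Matrix.det_fin_two]
      have h0 := hψ0 g
      have htr : ψ g + (d g : k) * (ψ g)⁻¹ = t g := by
        field_simp
        linear_combination hrel g
      have hdet : ψ g * ((d g : k) * (ψ g)⁻¹) = (d g : k) := by
        field_simp
      simp [htr, hdet]
    · have : ψ g = 1 := by simp [ψ, restr_eq_one U hU hg]
      rw [hρ, this, hd]
      ext i j
      fin_cases i <;> fin_cases j <;> simp

end Main

section Power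

variable {k : Type*} [Field k] {A : Type*} [Ring A] [Algebra k A]

theorem pow_rel_aux {x y : A} (hxy : x * y = 1) (hyx : y * x = 1) {a c : k}
    (h : x + c • y = a • (1 : A)) (m : ℕ) :
    (∃ s : k, x ^ m + c ^ m • y ^ m = s • (1 : A)) ∧
      (∃ s : k, x ^ (m + 1) + c ^ (m + 1) • y ^ (m + 1) = s • (1 : A)) := by
  induction m with
  | zero =>
    refine ⟨⟨2, ?_⟩, ⟨a, ?_⟩⟩
    · simp only [pow_zero, one_smul]
      rw [two_smul]
    · simpa using h
  | succ m ih =>
    obtain ⟨⟨s0, h0⟩, ⟨s1, h1⟩⟩ := ih
    refine ⟨⟨s1, h1⟩, ⟨a * s1 - c * s0, ?_⟩⟩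
    have e1 : x * y ^ (m + 1) = y ^ m := by rw [pow_succ', ← mul_assoc, hxy, one_mul]
    have e2 : y * x ^ (m + 1) = x ^ m := by rw [pow_succ', ← mul_assoc, hyx, one_mul]
    have e3 : (x + c • y) * (x ^ (m + 1) + c ^ (m + 1) • y ^ (m + 1))
        = x ^ (m + 1 + 1) + c ^ (m + 1 + 1) • y ^ (m + 1 + 1) + c • (x ^ m + c ^ m • y ^ m) := by
      rw [add_mul, mul_add, mul_add, mul_smul_comm, e1, smul_mul_assoc, e2, smul_mul_smul_comm,
        ← pow_succ' x, ← pow_succ' y, ← pow_succ' c, pow_succ' c m]
      module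
    rw [h, h1, h0, smul_mul_smul_comm, one_mul] at e3
    linear_combination (norm := module) -e3

/-- If `x` is invertible and satisfies `x ^ 2 - a x + c = 0` then every power `x ^ m` satisfies
a relation `X ^ 2 - s X + c ^ m = 0`. -/
theorem pow_rel {x y : A} (hxy : x * y = 1) (hyx : y * x = 1) {a c : k}
    (h : x * x - a • x + c • (1 : A) = 0) (m : ℕ) :
    ∃ s : k, x ^ m * x ^ m - s • x ^ m + c ^ m • (1 : A) = 0 := by
  have h' : x + c • y = a • (1 : A) := by
    have := congrArg (fun z => z * y) h
    simp only [add_mul, sub_mul, zero_mul, smul_mul_assoc, one_mul, mul_assoc, hxy, mul_one] at this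
    linear_combination (norm := module) this
  obtain ⟨s, hs⟩ := (pow_rel_aux hxy hyx h' m).1
  refine ⟨s, ?_⟩
  have hpow : y ^ m * x ^ m = 1 := by
    have hc : Commute y x := by rw [Commute, SemiconjBy, hyx, hxy]
    rw [← hc.mul_pow, hyx, one_pow]
  have := congrArg (fun z => z * x ^ m) hs
  simp only [add_mul, smul_mul_assoc, hpow, one_mul] at this
  linear_combination (norm := module) this

end Power

section Dense

variable {G : Type*} [Group G] {k : Type*} [Field k]
  {W : Type*} [AddCommGroup W] [Module k W]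

/-- If every `g` acts (and has the same value of `d`) as a power of an element satisfying a
quadratic relation, then all elements satisfy a quadratic relation. -/
theorem exists_isQuad_of_dense (r : G →* Module.End k W) (d : G →* kˣ)
    (h : ∀ g, ∃ (f : G) (j : ℕ) (a : k), r g = r f ^ j ∧ d g = d f ^ j ∧
      r f * r f - a • r f + (d f : k) • (1 : Module.End k W) = 0) :
    ∃ t : G → k, IsQuad r d t := by
  have h' : ∀ g, ∃ s : k, r g * r g - s • r g + (d g : k) • (1 : Module.End k W) = 0 := by
    intro g
    obtain ⟨f, j, a, h1, h2, h3⟩ := h g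
    have hxy : r f * r f⁻¹ = 1 := by rw [← map_mul, mul_inv_cancel, map_one]
    have hyx : r f⁻¹ * r f = 1 := by rw [← map_mul, inv_mul_cancel, map_one]
    obtain ⟨s, hs⟩ := pow_rel hxy hyx h3 j
    refine ⟨s, ?_⟩
    rw [h1, h2, Units.val_pow_eq_pow_val]
    exact hs
  choose t ht using h'
  exact ⟨t, ht⟩

/-- Uniqueness of the middle coefficient. -/
theorem IsQuad.t_unique [Nontrivial W] {r : G →* Module.End k W} {d : G →* kˣ} {t : G → k}
    (h : IsQuad r d t) {g : G} {a : k}
    (ha : r g * r g - a • r g + (d g : k) • (1 : Module.End k W) = 0) : t g = a := by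
  have h1 : (t g - a) • r g = 0 := by
    linear_combination (norm := module) ha - h g
  have h2 : r g * r g⁻¹ = 1 := by rw [← map_mul, mul_inv_cancel, map_one]
  have h3 : (t g - a) • (1 : Module.End k W) = 0 := by
    rw [← h2, ← smul_mul_assoc, h1, zero_mul]
  rcases smul_eq_zero.mp h3 with h4 | h4
  · exact sub_eq_zero.mp h4
  · exact absurd h4 one_ne_zero

end Dense

end Fermat.Agent.S29.QuadRel
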