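import Mathlib
import Fermat.Prelude.Def_GaloisRep_Residual
import Fermat.Agent.S29.QuadRel
import Fermat.Agent.S29.Cyclo

set_option autoImplicit false

/-!
# Abstract assembly: from a Galois module with the Eichler-Shimura relation to a two dimensional
residual representation.
-/

namespace Fermat.Agent.S29

open Polynomial Fermat.Agent.S29.QuadRel Fermat.Agent.S29.Cyclo

local notation "Qbar" => AlgebraicClosure ℚ
local notation "GQ" => (AlgebraicClosure ℚ ≃ₐ[ℚ] AlgebraicClosure ℚ)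

/-- The weak form of the density theorem (Frobenius 1896, existence form): every element of a
finite quotient of `G_ℚ` is a power of a Frobenius lift at a prime outside any finite set. -/
def WeakChebotarev : Prop :=
  ∀ (L : IntermediateField ℚ Qbar), FiniteDimensional ℚ L → ∀ (σ : GQ) (T : Finset ℕ),
    ∃ ℓ : ℕ, ℓ.Prime ∧ ℓ ∉ T ∧ ∃ A : ValuationSubring Qbar, A.LiesOverPrime ℓ ∧
      ∃ f : GQ, A.IsFrobeniusAt f ℓ ∧ ∃ j : ℕ, ∀ x ∈ L, (f ^ j) x = σ x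

section

variable (p : ℕ) [Fact p.Prime] (κ : Type*) [Field κ] [CharP κ p]

/-- The mod `p` cyclotomic character with values in a field of characteristic `p`. -/
noncomputable def cycK : GQ →* κˣ :=
  (Units.map ((ZMod.castHom (dvd_refl p) κ : ZMod p →+* κ) : ZMod p →* κ)).comp (cyc p)

theorem cycK_frob {ℓ : ℕ} (hℓ : ℓ.Prime) (hne : ℓ ≠ p) (A : ValuationSubring Qbar)
    (hA : A.LiesOverPrime ℓ) {σ : GQ} (hσ : A.IsFrobeniusAt σ ℓ) :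
    ((cycK p κ σ : κˣ) : κ) = (ℓ : κ) := by
  have h := cyc_frob p hℓ hne A hA hσ
  simp only [cycK, MonoidHom.comp_apply, Units.coe_map, MonoidHom.coe_coe, h, map_natCast]

theorem cycK_eq_one {σ : GQ} (h : cyc p σ = 1) : cycK p κ σ = 1 := by
  simp only [cycK, MonoidHom.comp_apply, h, map_one]

end

theorem eq_pow_of_agree {M : Type*} [Monoid M] (r : GQ →* M) (L : IntermediateField ℚ Qbar)
    (hL : ∀ σ : GQ, (∀ x ∈ L, σ x = x) → r σ = 1) {σ f : GQ} {j : ℕ}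
    (h : ∀ x ∈ L, (f ^ j) x = σ x) : r σ = r f ^ j := by
  have h1 : r (σ⁻¹ * f ^ j) = 1 := by
    apply hL
    intro x hx
    rw [AlgEquiv.mul_apply, h x hx]
    exact σ.symm_apply_apply x
  have h2 : r σ * r (σ⁻¹ * f ^ j) = r f ^ j := by
    rw [← map_mul, mul_inv_cancel_left, map_pow]
  rw [← h2, h1, mul_one]

theorem exists_matrixRep_of_module (hWC : WeakChebotarev) (p : ℕ) [Fact p.Prime]
    {κ : Type*} [Field κ] [IsAlgClosed κ] [CharP κ p] (S : Finset ℕ) (hpS : p ∈ S) (c : ℕ → κ)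
    {W : Type*} [AddCommGroup W] [Module κ W] [FiniteDimensional κ W] [Nontrivial W]
    (r : GQ →* Module.End κ W)
    (hlev : ∃ L : IntermediateField ℚ Qbar, FiniteDimensional ℚ L ∧
      ∀ σ : GQ, (∀ x ∈ L, σ x = x) → r σ = 1)
    (hES : ∀ ℓ : ℕ, ℓ.Prime → ℓ ∉ S → ∀ A : ValuationSubring Qbar, A.LiesOverPrime ℓ →
      ∀ σ : GQ, A.IsFrobeniusAt σ ℓ →
        r σ * r σ - c ℓ • r σ + (ℓ : κ) • (1 : Module.End κ W) = 0) :
    ∃ ρ : GQ →* Matrix (Fin 2) (Fin 2) κ,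
      (∃ L : IntermediateField ℚ Qbar, FiniteDimensional ℚ L ∧
        ∀ σ : GQ, (∀ x ∈ L, σ x = x) → ρ σ = 1) ∧
      (∀ σ : GQ, r σ = 1 → cyc p σ = 1 → ρ σ = 1) ∧
      (∀ ℓ : ℕ, ℓ.Prime → ℓ ∉ S → ∀ A : ValuationSubring Qbar, A.LiesOverPrime ℓ →
        ∀ σ : GQ, A.IsFrobeniusAt σ ℓ →
          (ρ σ).charpoly = X ^ 2 - C (c ℓ) * X + C (ℓ : κ)) := by
  obtain ⟨L₁, hL₁fin, hL₁⟩ := hlev
  have hcf := cycField_finite p
  set L : IntermediateField ℚ Qbar := L₁ ⊔ cycField p with hLdef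
  have hLfin : FiniteDimensional ℚ L := IntermediateField.finiteDimensional_sup L₁ (cycField p)
  have hLr : ∀ σ : GQ, (∀ x ∈ L, σ x = x) → r σ = 1 := fun σ h =>
    hL₁ σ (fun x hx => h x ((le_sup_left : L₁ ≤ L) hx))
  have hLc : ∀ σ : GQ, (∀ x ∈ L, σ x = x) → cyc p σ = 1 := fun σ h =>
    cyc_eq_one_of_fixes p (fun x hx => h x ((le_sup_right : cycField p ≤ L) hx))
  have hLd : ∀ σ : GQ, (∀ x ∈ L, σ x = x) → cycK p κ σ = 1 := fun σ h =>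
    cycK_eq_one p κ (hLc σ h)
  have hne : ∀ ℓ : ℕ, ℓ ∉ S → ℓ ≠ p := fun ℓ h1 h2 => h1 (h2 ▸ hpS)
  have hrel : ∀ ℓ : ℕ, ℓ.Prime → ℓ ∉ S → ∀ A : ValuationSubring Qbar, A.LiesOverPrime ℓ →
      ∀ σ : GQ, A.IsFrobeniusAt σ ℓ →
        r σ * r σ - c ℓ • r σ + ((cycK p κ σ : κˣ) : κ) • (1 : Module.End κ W) = 0 := by
    intro ℓ hℓ hℓS A hA σ hσ
    rw [cycK_frob p κ hℓ (hne ℓ hℓS) A hA hσ]
    exact hES ℓ hℓ hℓS A hA σ hσ
  obtain ⟨t, ht⟩ := exists_isQuad_of_dense r (cycK p κ) (by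
    intro σ
    obtain ⟨ℓ, hℓ, hℓS, A, hA, f, hf, j, hj⟩ := hWC L hLfin σ S
    exact ⟨f, j, c ℓ, eq_pow_of_agree r L hLr hj, eq_pow_of_agree (cycK p κ) L hLd hj,
      hrel ℓ hℓ hℓS A hA f hf⟩)
  obtain ⟨ρ, hρ1, hρ2⟩ := exists_matrixRep r (cycK p κ) t ht
  refine ⟨ρ, ⟨L, hLfin, fun σ h => hρ2 σ (hLr σ h) (hLd σ h)⟩,
    fun σ h1 h2 => hρ2 σ h1 (cycK_eq_one p κ h2), ?_⟩
  intro ℓ hℓ hℓS A hA σ hσ
  rw [hρ1 σ, ht.t_unique (hrel ℓ hℓ hℓS A hA σ hσ), cycK_frob p κ hℓ (hne ℓ hℓS) A hA hσ]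

end Fermat.Agent.S29
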