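import Mathlib
import Fermat.Prelude.Def_GaloisRep_Residual
import Fermat.Agent.S29.Assembly

set_option autoImplicit false

/-!
# From a matrix representation to the conclusion of S29
-/

namespace Fermat.Agent.S29

open Polynomial Fermat.Agent.S29.Cyclo

local notation "Qbar" => AlgebraicClosure ℚ
local notation "GQ" => (AlgebraicClosure ℚ ≃ₐ[ℚ] AlgebraicClosure ℚ)
local notation "Zbar" => integralClosure ℤ ℂ

/-- The residual representation given by a matrix representation of finite level. -/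
noncomputable def ofMatrixRep {k : Type} [Field k] (ρ : GQ →* Matrix (Fin 2) (Fin 2) k)
    (h : ∃ L : IntermediateField ℚ Qbar, FiniteDimensional ℚ L ∧
      ∀ σ : GQ, (∀ x ∈ L, σ x = x) → ρ σ = 1) : ResidualGaloisRep k where
  V := Fin 2 → k
  finrank_eq := by simp
  ρ := ((Matrix.toLinAlgEquiv' : Matrix (Fin 2) (Fin 2) k ≃ₐ[k] _) :
    Matrix (Fin 2) (Fin 2) k →* Module.End k (Fin 2 → k)).comp ρ
  factorsThroughFiniteLevel := by
    obtain ⟨L, hL, h1⟩ := h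
    exact ⟨L, hL, fun σ hσ => by rw [MonoidHom.comp_apply, h1 σ hσ, map_one]⟩

theorem ofMatrixRep_apply {k : Type} [Field k] (ρ : GQ →* Matrix (Fin 2) (Fin 2) k)
    (h : ∃ L : IntermediateField ℚ Qbar, FiniteDimensional ℚ L ∧
      ∀ σ : GQ, (∀ x ∈ L, σ x = x) → ρ σ = 1) (σ : GQ) :
    (ofMatrixRep ρ h).ρ σ = Matrix.toLin' (ρ σ) := rfl

theorem ofMatrixRep_charpoly {k : Type} [Field k] (ρ : GQ →* Matrix (Fin 2) (Fin 2) k)
    (h : ∃ L : IntermediateField ℚ Qbar, FiniteDimensional ℚ L ∧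
      ∀ σ : GQ, (∀ x ∈ L, σ x = x) → ρ σ = 1) (σ : GQ) :
    LinearMap.charpoly ((ofMatrixRep ρ h).ρ σ) = (ρ σ).charpoly := by
  rw [ofMatrixRep_apply]
  exact Matrix.charpoly_toLin' (ρ σ)

/-- The case of level zero is vacuous. -/
theorem result_zero {g : CuspForm (CongruenceSubgroup.Gamma0 0) 2}
    {p : ℕ} {k : Type} [Field k] (φ : Zbar →+* k) :
    ∃ ρ : ResidualGaloisRep k, ρ.IsAttachedTo g φ ∧
      ∀ ℓ : ℕ, ℓ.Prime → ¬ ℓ ∣ 0 * p → ρ.IsUnramifiedAt ℓ := by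
  refine ⟨ofMatrixRep 1 ⟨⊥, inferInstance, fun _ _ => rfl⟩, ?_, ?_⟩
  · intro ℓ _ h
    exact absurd (dvd_zero ℓ) h
  · intro ℓ _ h
    rw [zero_mul] at h
    exact absurd (dvd_zero ℓ) h

/-- **Interface II.** A nonzero finite dimensional Galois module over an algebraically closed
field mapping to `k`, of finite level, unramified outside `N p`, on which the Frobenius lifts
satisfy the Eichler-Shimura relation with the eigenvalues of `g`, gives the conclusion of S29. -/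
theorem result_of_module (hWC : WeakChebotarev)
    {N : ℕ} (hN : N ≠ 0) {g : CuspForm (CongruenceSubgroup.Gamma0 N) 2}
    {p : ℕ} (hp : p.Prime) {k : Type} [Field k] [CharP k p] (φ : Zbar →+* k)
    {κ : Type*} [Field κ] [IsAlgClosed κ] [CharP κ p] (ι : κ →+* k) (c : ℕ → κ)
    (hc : ∀ ℓ : ℕ, ℓ.Prime → ¬ ℓ ∣ N * p →
      ∃ a : Zbar, (a : ℂ) = ModularFormClass.qCoeff g ℓ ∧ ι (c ℓ) = φ a)
    {W : Type*} [AddCommGroup W] [Module κ W] [FiniteDimensional κ W] [Nontrivial W]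
    (r : GQ →* Module.End κ W)
    (hlev : ∃ L : IntermediateField ℚ Qbar, FiniteDimensional ℚ L ∧
      ∀ σ : GQ, (∀ x ∈ L, σ x = x) → r σ = 1)
    (hunr : ∀ ℓ : ℕ, ℓ.Prime → ¬ ℓ ∣ N * p → ∀ A : ValuationSubring Qbar, A.LiesOverPrime ℓ →
      ∀ σ ∈ A.inertiaSubgroupIn ℚ, r σ = 1)
    (hES : ∀ ℓ : ℕ, ℓ.Prime → ¬ ℓ ∣ N * p → ∀ A : ValuationSubring Qbar, A.LiesOverPrime ℓ →
      ∀ σ : GQ, A.IsFrobeniusAt σ ℓ →
        r σ * r σ - c ℓ • r σ + (ℓ : κ) • (1 : Module.End κ W) = 0) :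
    ∃ ρ : ResidualGaloisRep k, ρ.IsAttachedTo g φ ∧
      ∀ ℓ : ℕ, ℓ.Prime → ¬ ℓ ∣ N * p → ρ.IsUnramifiedAt ℓ := by
  have : Fact p.Prime := ⟨hp⟩
  have hNp : N * p ≠ 0 := mul_ne_zero hN hp.ne_zero
  have hS : ∀ ℓ : ℕ, ℓ.Prime → (ℓ ∉ (N * p).primeFactors ↔ ¬ ℓ ∣ N * p) := by
    intro ℓ hℓ
    rw [Nat.mem_primeFactors]
    tauto
  have hpS : p ∈ (N * p).primeFactors :=
    Nat.mem_primeFactors.mpr ⟨hp, dvd_mul_left p N, hNp⟩
  obtain ⟨ρ, ⟨L, hLfin, hL⟩, hρ1, hρ2⟩ := exists_matrixRep_of_module hWC p (N * p).primeFactors hpS c r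
    hlev (fun ℓ hℓ hℓS => hES ℓ hℓ ((hS ℓ hℓ).mp hℓS))
  let ρk : GQ →* Matrix (Fin 2) (Fin 2) k :=
    ((ι.mapMatrix : Matrix (Fin 2) (Fin 2) κ →+* Matrix (Fin 2) (Fin 2) k) :
      Matrix (Fin 2) (Fin 2) κ →* Matrix (Fin 2) (Fin 2) k).comp ρ
  have hρk : ∀ σ, ρk σ = (ρ σ).map ι := fun σ => rfl
  have hρk1 : ∀ σ, ρ σ = 1 → ρk σ = 1 := by
    intro σ h
    simp only [ρk, MonoidHom.comp_apply, h, map_one]
  refine ⟨ofMatrixRep ρk ⟨L, hLfin, fun σ h => hρk1 σ (hL σ h)⟩, ?_, ?_⟩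
  · intro ℓ hℓ hℓN hℓk A hA σ hσ
    have hℓp : ℓ ≠ p := by
      rintro rfl
      exact hℓk (CharP.cast_eq_zero k ℓ)
    have hnd : ¬ ℓ ∣ N * p := by
      intro h
      rcases (Nat.Prime.dvd_mul hℓ).mp h with h | h
      · exact hℓN h
      · exact hℓp ((Nat.prime_dvd_prime_iff_eq hℓ hp).mp h)
    obtain ⟨a, ha1, ha2⟩ := hc ℓ hℓ hnd
    refine ⟨a, ha1, ?_⟩
    rw [ofMatrixRep_charpoly, hρk, Matrix.charpoly_map, hρ2 ℓ hℓ ((hS ℓ hℓ).mpr hnd) A hA σ hσ]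
    simp [ha2]
  · intro ℓ hℓ hnd A hA σ hσ
    have hℓp : ℓ ≠ p := by
      rintro rfl
      exact hnd (dvd_mul_left _ _)
    rw [ofMatrixRep_apply, hρk1 σ (hρ1 σ (hunr ℓ hℓ hnd A hA σ hσ) (cyc_inertia p hℓ hℓp A hA hσ)),
      Matrix.toLin'_one]
    rfl

end Fermat.Agent.S29
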