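import Mathlib

set_option autoImplicit false

/-!
# A maximal ideal containing the annihilator of a finite module has nonzero torsion
-/

namespace Fermat.Agent.S29.Socle

variable {R : Type*} [CommRing R] {M : Type*} [AddCommGroup M] [Module R M]

/-- If `I` contains the annihilator of the finite module `M` and `I ≠ ⊤`, some nonzero element of
`M` is killed by `I`. -/
theorem exists_ne_zero_killed [Finite M] (I : Ideal R) (hI : I ≠ ⊤)
    (hann : ∀ x : R, (∀ m : M, x • m = 0) → x ∈ I) :
    ∃ y : M, y ≠ 0 ∧ ∀ b ∈ I, b • y = 0 := by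
  -- the chain `I ^ j • ⊤` stabilises
  have hart : IsArtinian R M := inferInstance
  let f : ℕ →o (Submodule R M)ᵒᵈ :=
    { toFun := fun j => OrderDual.toDual (I ^ j • (⊤ : Submodule R M))
      monotone' := by
        intro a b hab
        show I ^ b • (⊤ : Submodule R M) ≤ I ^ a • (⊤ : Submodule R M)
        exact Submodule.smul_mono_left (Ideal.pow_le_pow_right hab) }
  obtain ⟨n, hn⟩ := IsArtinian.monotone_stabilizes f
  have hstab : I ^ n • (⊤ : Submodule R M) = I ^ (n + 1) • (⊤ : Submodule R M) :=
    congrArg OrderDual.ofDual (hn (n + 1) (Nat.le_succ n))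
  have hle : I ^ n • (⊤ : Submodule R M) ≤ I • (I ^ n • (⊤ : Submodule R M)) := by
    rw [← Submodule.mul_smul, ← pow_succ', ← hstab]
  have hfg : (I ^ n • (⊤ : Submodule R M)).FG := by
    have : IsNoetherian R M := inferInstance
    exact IsNoetherian.noetherian _
  obtain ⟨r, hr1, hr2⟩ :=
    Submodule.exists_sub_one_mem_and_smul_eq_zero_of_fg_of_le_smul I _ hfg hle
  have hrI : r ∉ I := by
    intro h
    apply hI
    rw [Ideal.eq_top_iff_one]
    have := I.sub_mem h hr1
    simpa using this
  have key : ∀ j : ℕ, (∀ a ∈ I ^ j, ∀ x : M, (a * r) • x = 0) →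
      ∃ y : M, y ≠ 0 ∧ ∀ b ∈ I, b • y = 0 := by
    intro j
    induction j with
    | zero =>
      intro h
      exfalso
      apply hrI
      apply hann
      intro m
      have := h 1 (by simp) m
      simpa using this
    | succ j ih =>
      intro h
      by_cases hj : ∀ a ∈ I ^ j, ∀ x : M, (a * r) • x = 0
      · exact ih hj
      · push Not at hj
        obtain ⟨a, ha, x, hx⟩ := hj
        refine ⟨(a * r) • x, hx, fun b hb => ?_⟩
        rw [smul_smul, ← mul_assoc]
        apply h
        rw [pow_succ']
        exact Ideal.mul_mem_mul hb ha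
  apply key n
  intro a ha x
  rw [mul_comm, mul_smul]
  exact hr2 _ (Submodule.smul_mem_smul ha trivial)

/-- The range of a ring hom killing the annihilator of a finite module is finite. -/
theorem finite_range_of_ann [Finite M] {κ : Type*} [CommRing κ] (θ : R →+* κ)
    (hθ : ∀ x : R, (∀ m : M, x • m = 0) → θ x = 0) : (Set.range θ).Finite := by
  classical
  let act : R → (M → M) := fun x m => x • m
  have hfac : ∀ x y : R, act x = act y → θ x = θ y := by
    intro x y h
    have : θ (x - y) = 0 := by
      apply hθ
      intro m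
      rw [sub_smul, sub_eq_zero]
      exact congrFun h m
    rwa [map_sub, sub_eq_zero] at this
  have hfin : (Set.range act).Finite := Set.toFinite _
  have : Set.range θ = (fun s : M → M => if h : ∃ x, act x = s then θ h.choose else 0) ''
      (Set.range act) := by
    ext z
    constructor
    · rintro ⟨x, rfl⟩
      refine ⟨act x, ⟨x, rfl⟩, ?_⟩
      have h : ∃ x', act x' = act x := ⟨x, rfl⟩
      simp only [dif_pos h]
      exact hfac _ _ h.choose_spec
    · rintro ⟨s, ⟨x, rfl⟩, rfl⟩
      have h : ∃ x', act x' = act x := ⟨x, rfl⟩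
      simp only [dif_pos h]
      exact ⟨_, rfl⟩
  rw [this]
  exact hfin.image _

theorem ker_isMaximal_of_ann [Finite M] {κ : Type*} [Field κ] (θ : R →+* κ)
    (hθ : ∀ x : R, (∀ m : M, x • m = 0) → θ x = 0) : (RingHom.ker θ).IsMaximal := by
  have hfin : Finite θ.range := (finite_range_of_ann θ hθ).to_subtype
  have hfin' : Finite (R ⧸ RingHom.ker θ) :=
    Finite.of_equiv _ (RingHom.quotientKerEquivRange θ).symm.toEquiv
  have hprime : (RingHom.ker θ).IsPrime := RingHom.ker_isPrime θ
  have hdom : IsDomain (R ⧸ RingHom.ker θ) := (Ideal.Quotient.isDomain_iff_prime _).mpr hprime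
  exact Ideal.Quotient.maximal_of_isField _ (Finite.isField_of_domain _)

end Fermat.Agent.S29.Socle
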