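import Mathlib
import Fermat.Prelude.Def_GaloisRep_Residual
import Fermat.Agent.S29.Final
import Fermat.Agent.S29.Socle

set_option autoImplicit false

/-!
# Interface I: a finite Hecke-Galois module on which the eigensystem "occurs" (annihilator
contained in the kernel of the eigencharacter) gives the conclusion of S29.
-/

namespace Fermat.Agent.S29

open Polynomial TensorProduct Fermat.Agent.S29.Socle

local notation "Qbar" => AlgebraicClosure ℚ
local notation "GQ" => (AlgebraicClosure ℚ ≃ₐ[ℚ] AlgebraicClosure ℚ)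
local notation "Zbar" => integralClosure ℤ ℂ

section Torsion

variable {G : Type*} [Group G] {R : Type*} [CommRing R] {M : Type*} [AddCommGroup M] [Module R M]

/-- The action on the `I`-torsion, as linear maps over the quotient ring. -/
def torsionRep (ρ : G →* Module.End R M) (I : Ideal R) :
    G →* Module.End (R ⧸ I) (Submodule.torsionBySet R M (I : Set R)) where
  toFun g :=
    { toFun := fun x => ⟨ρ g (x : M), by
        rw [Submodule.mem_torsionBySet_iff]
        intro a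
        rw [← map_smul, (Submodule.mem_torsionBySet_iff _ _).mp x.2 a, map_zero]⟩
      map_add' := fun x y => by
        ext
        simp
      map_smul' := fun a x => by
        obtain ⟨a, rfl⟩ := Ideal.Quotient.mk_surjective a
        ext
        simp only [Submodule.torsionBySet.mk_smul, RingHom.id_apply, Submodule.coe_smul, map_smul] }
  map_one' := by
    ext x
    simp
  map_mul' g h := by
    ext x
    simp

@[simp] theorem torsionRep_apply_coe (ρ : G →* Module.End R M) (I : Ideal R) (g : G)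
    (x : Submodule.torsionBySet R M (I : Set R)) :
    ((torsionRep ρ I g x : Submodule.torsionBySet R M (I : Set R)) : M) = ρ g (x : M) := rfl

theorem torsionRep_eq_one {ρ : G →* Module.End R M} (I : Ideal R) {g : G} (h : ρ g = 1) :
    torsionRep ρ I g = 1 := by
  ext x
  simp [h]

theorem torsionRep_rel {ρ : G →* Module.End R M} (I : Ideal R) {g : G} {a b : R}
    (h : ρ g * ρ g - a • ρ g + b • (1 : Module.End R M) = 0) :
    torsionRep ρ I g * torsionRep ρ I g - Ideal.Quotient.mk I a • torsionRep ρ I g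
      + Ideal.Quotient.mk I b • (1 : Module.End (R ⧸ I) _) = 0 := by
  ext x
  have := congrArg (fun f : Module.End R M => f (x : M)) h
  simpa using this

end Torsion

/-- **Interface I.** -/
theorem result_of_faithful (hWC : WeakChebotarev)
    {N : ℕ} (hN : N ≠ 0) {g : CuspForm (CongruenceSubgroup.Gamma0 N) 2}
    {p : ℕ} (hp : p.Prime) {k : Type} [Field k] [CharP k p] (φ : Zbar →+* k)
    {κ : Type*} [Field κ] [IsAlgClosed κ] [CharP κ p] (ι : κ →+* k) (c : ℕ → κ)
    (hc : ∀ ℓ : ℕ, ℓ.Prime → ¬ ℓ ∣ N * p →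
      ∃ a : Zbar, (a : ℂ) = ModularFormClass.qCoeff g ℓ ∧ ι (c ℓ) = φ a)
    {R : Type*} [CommRing R] {M : Type*} [AddCommGroup M] [Module R M] [Finite M]
    (θ : R →+* κ) (hθ : ∀ x : R, (∀ m : M, x • m = 0) → θ x = 0)
    (T : ℕ → R) (hT : ∀ ℓ : ℕ, ℓ.Prime → ¬ ℓ ∣ N * p → θ (T ℓ) = c ℓ)
    (ρ : GQ →* Module.End R M)
    (hlev : ∃ L : IntermediateField ℚ Qbar, FiniteDimensional ℚ L ∧
      ∀ σ : GQ, (∀ x ∈ L, σ x = x) → ρ σ = 1)
    (hunr : ∀ ℓ : ℕ, ℓ.Prime → ¬ ℓ ∣ N * p → ∀ A : ValuationSubring Qbar, A.LiesOverPrime ℓ →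
      ∀ σ ∈ A.inertiaSubgroupIn ℚ, ρ σ = 1)
    (hES : ∀ ℓ : ℕ, ℓ.Prime → ¬ ℓ ∣ N * p → ∀ A : ValuationSubring Qbar, A.LiesOverPrime ℓ →
      ∀ σ : GQ, A.IsFrobeniusAt σ ℓ →
        ρ σ * ρ σ - T ℓ • ρ σ + (ℓ : R) • (1 : Module.End R M) = 0) :
    ∃ ρ' : ResidualGaloisRep k, ρ'.IsAttachedTo g φ ∧
      ∀ ℓ : ℕ, ℓ.Prime → ¬ ℓ ∣ N * p → ρ'.IsUnramifiedAt ℓ := by
  have hmax : (RingHom.ker θ).IsMaximal := ker_isMaximal_of_ann θ hθ
  set I : Ideal R := RingHom.ker θ with hI
  let _ : Field (R ⧸ I) := Ideal.Quotient.field I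
  let _ : Algebra (R ⧸ I) κ := (RingHom.kerLift θ).toAlgebra
  have halg : ∀ a : R, algebraMap (R ⧸ I) κ (Ideal.Quotient.mk I a) = θ a := fun a => rfl
  obtain ⟨y, hy0, hy⟩ := exists_ne_zero_killed I hmax.ne_top (fun x hx => hθ x hx)
  let M₀ := Submodule.torsionBySet R M (I : Set R)
  have hnt : Nontrivial M₀ := by
    refine ⟨⟨⟨y, ?_⟩, 0, ?_⟩⟩
    · rw [Submodule.mem_torsionBySet_iff]
      exact fun a => hy a a.2
    · intro h
      exact hy0 (congrArg Subtype.val h)
  have hfinM₀ : Module.Finite (R ⧸ I) M₀ := Module.Finite.of_finite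
  let W := κ ⊗[R ⧸ I] M₀
  have hWfin : FiniteDimensional κ W := inferInstance
  have hWnt : Nontrivial W := by
    apply Module.nontrivial_of_finrank_pos (R := κ)
    rw [Module.finrank_baseChange]
    exact Module.finrank_pos
  let bc : Module.End (R ⧸ I) M₀ →ₐ[R ⧸ I] Module.End κ W := Module.End.baseChangeHom (R ⧸ I) κ M₀
  let r : GQ →* Module.End κ W := (bc : Module.End (R ⧸ I) M₀ →* Module.End κ W).comp (torsionRep ρ I)
  have hr : ∀ σ, r σ = bc (torsionRep ρ I σ) := fun σ => rfl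
  have hr1 : ∀ σ, ρ σ = 1 → r σ = 1 := by
    intro σ h
    rw [hr, torsionRep_eq_one I h, map_one]
  refine result_of_module hWC hN hp φ ι c hc r ?_ ?_ ?_
  · obtain ⟨L, hL, h⟩ := hlev
    exact ⟨L, hL, fun σ hσ => hr1 σ (h σ hσ)⟩
  · intro ℓ hℓ hnd A hA σ hσ
    exact hr1 σ (hunr ℓ hℓ hnd A hA σ hσ)
  · intro ℓ hℓ hnd A hA σ hσ
    have h1 := congrArg bc (torsionRep_rel I (hES ℓ hℓ hnd A hA σ hσ))
    rw [map_zero, map_add, map_sub, map_mul, map_smul, map_smul, map_one, ← hr,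
      ← algebraMap_smul κ (Ideal.Quotient.mk I (T ℓ)), ← algebraMap_smul κ (Ideal.Quotient.mk I (ℓ : R)),
      halg, halg, hT ℓ hℓ hnd, map_natCast] at h1
    exact h1

end Fermat.Agent.S29
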