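import Mathlib

set_option autoImplicit false

/-!
# The residue field of the ring of algebraic integers at the kernel of a map to a field of
positive characteristic is an algebraically closed field.
-/

namespace Fermat.Agent.S29.Residue

open Polynomial

local notation "Zbar" => integralClosure ℤ ℂ

theorem ker_isMaximal {p : ℕ} (hp : p.Prime) {k : Type*} [Field k] [CharP k p]
    (φ : Zbar →+* k) : (RingHom.ker φ).IsMaximal := by
  have hprime : (RingHom.ker φ).IsPrime := RingHom.ker_isPrime φ
  have hint : Algebra.IsIntegral ℤ Zbar := inferInstance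
  have hcomap : ((RingHom.ker φ).comap (algebraMap ℤ Zbar)).IsMaximal := by
    have h1 : (RingHom.ker φ).comap (algebraMap ℤ Zbar) = Ideal.span {(p : ℤ)} := by
      ext n
      rw [Ideal.mem_comap, RingHom.mem_ker, Ideal.mem_span_singleton]
      have : φ (algebraMap ℤ Zbar n) = (n : k) := by simp
      rw [this]
      exact CharP.intCast_eq_zero_iff k p n
    rw [h1]
    have hpi : Prime (p : ℤ) := Nat.prime_iff_prime_int.mp hp
    exact PrincipalIdealRing.isMaximal_of_irreducible hpi.irreducible
  exact Ideal.isMaximal_of_isIntegral_of_isMaximal_comap (RingHom.ker φ) hcomap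

theorem exists_root_zbar (f : Zbar[X]) (hf : f.Monic) (hdeg : f.degree ≠ 0) :
    ∃ x : Zbar, f.eval x = 0 := by
  have hdeg' : (f.map (algebraMap Zbar ℂ)).degree ≠ 0 := by
    rwa [hf.degree_map]
  obtain ⟨z, hz⟩ := IsAlgClosed.exists_root (f.map (algebraMap Zbar ℂ)) hdeg'
  have hz' : IsIntegral Zbar z := ⟨f, hf, by rwa [IsRoot.def, eval_map] at hz⟩
  have hz'' : IsIntegral ℤ z := isIntegral_trans z hz'
  have hmem : z ∈ Zbar := hz''
  refine ⟨⟨z, hmem⟩, ?_⟩
  have hinj : Function.Injective (algebraMap Zbar ℂ) := Subtype.val_injective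
  apply hinj
  rw [map_zero, ← Polynomial.eval₂_at_apply, ← eval_map]
  exact hz

theorem isAlgClosed_quot (I : Ideal Zbar) [hI : I.IsMaximal] :
    letI := Ideal.Quotient.field I
    IsAlgClosed (Zbar ⧸ I) := by
  let _ := Ideal.Quotient.field I
  apply IsAlgClosed.of_exists_root
  intro q hq hirr
  obtain ⟨f, hfmap, hfdeg, hfmonic⟩ :=
    Polynomial.lifts_and_degree_eq_and_monic
      ((Polynomial.mem_lifts q).mpr (Polynomial.map_surjective _ Ideal.Quotient.mk_surjective q)) hq
  have hdeg : f.degree ≠ 0 := by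
    rw [hfdeg]
    exact (Polynomial.degree_pos_of_irreducible hirr).ne'
  obtain ⟨x, hx⟩ := exists_root_zbar f hfmonic hdeg
  refine ⟨Ideal.Quotient.mk I x, ?_⟩
  rw [← hfmap, eval_map, Polynomial.eval₂_at_apply, hx, map_zero]

end Fermat.Agent.S29.Residue
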