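import Mathlib
import Fermat.Agent.S29.FromFaithful
import Fermat.Agent.S29.Residue
import Fermat.Agent.S30.Defs

set_option autoImplicit false

/-!
# S29 from the first layer of a Hecke-Galois tower (interface of `Fermat.Agent.S30.Defs`)
-/

namespace Fermat.Agent.S29

open Polynomial

local notation "Qbar" => AlgebraicClosure ℚ
local notation "GQ" => (AlgebraicClosure ℚ ≃ₐ[ℚ] AlgebraicClosure ℚ)
local notation "Zbar" => integralClosure ℤ ℂ

theorem weakChebotarev_of (wc : Fermat.Agent.S30.WeakCheb) : WeakChebotarev := by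
  intro L hL σ T
  obtain ⟨ℓ, A, f, a, b, h1, h2, h3, h4, -, h6⟩ := wc L σ T
  exact ⟨ℓ, h1, h2, A, h3, f, h4, b, h6⟩

/-- The first layer of a tower for the eigensystem of `g`, if finite, gives the conclusion of
S29. -/
theorem result_of_level (wc : Fermat.Agent.S30.WeakCheb)
    {N : ℕ} (hN : N ≠ 0) {g : CuspForm (CongruenceSubgroup.Gamma0 N) 2}
    {p : ℕ} (hp : p.Prime) {k : Type} [Field k] [CharP k p] (φ : Zbar →+* k)
    (a : ℕ → Zbar)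
    (ha : ∀ ℓ : ℕ, ℓ.Prime → ¬ ℓ ∣ N * p → (a ℓ : ℂ) = ModularFormClass.qCoeff g ℓ)
    (Lv : Fermat.Agent.S30.Level N p (N * p).primeFactors a 1) [Finite Lv.W] :
    ∃ ρ : ResidualGaloisRep k, ρ.IsAttachedTo g φ ∧
      ∀ ℓ : ℕ, ℓ.Prime → ¬ ℓ ∣ N * p → ρ.IsUnramifiedAt ℓ := by
  have hNp : N * p ≠ 0 := mul_ne_zero hN hp.ne_zero
  have hmax : (RingHom.ker φ).IsMaximal := Residue.ker_isMaximal hp φ
  let _ : Field (Zbar ⧸ RingHom.ker φ) := Ideal.Quotient.field (RingHom.ker φ)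
  have hac : IsAlgClosed (Zbar ⧸ RingHom.ker φ) := Residue.isAlgClosed_quot (RingHom.ker φ)
  let ι : (Zbar ⧸ RingHom.ker φ) →+* k := RingHom.kerLift φ
  have hι : ∀ x : Zbar, ι (Ideal.Quotient.mk (RingHom.ker φ) x) = φ x := fun x => rfl
  have hchar : CharP (Zbar ⧸ RingHom.ker φ) p := (RingHom.charP_iff ι ι.injective p).mpr inferInstance
  let θ : Fermat.Agent.S30.HA →+* (Zbar ⧸ RingHom.ker φ) :=
    (Ideal.Quotient.mk (RingHom.ker φ)).comp (MvPolynomial.aeval a : _ →ₐ[ℤ] Zbar).toRingHom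
  have hθ : ∀ P : Fermat.Agent.S30.HA, θ P = Ideal.Quotient.mk (RingHom.ker φ) (MvPolynomial.aeval a P) :=
    fun P => rfl
  have hsplit : ∀ ℓ : ℕ, ¬ ℓ ∣ N * p → ¬ ℓ ∣ N ∧ ℓ ≠ p := by
    intro ℓ h
    exact ⟨fun h' => h (Dvd.dvd.mul_right h' p), fun h' => h (h' ▸ dvd_mul_left _ _)⟩
  refine result_of_faithful (weakChebotarev_of wc) hN hp φ ι
    (fun ℓ => Ideal.Quotient.mk (RingHom.ker φ) (a ℓ)) ?_ (M := Lv.W) θ ?_
    (fun ℓ => (MvPolynomial.X ℓ : Fermat.Agent.S30.HA)) ?_ Lv.ρ Lv.finiteLevel ?_ ?_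
  · intro ℓ hℓ hnd
    exact ⟨a ℓ, ha ℓ hℓ hnd, hι _⟩
  · intro P hP
    have h1 := Lv.faithful P hP
    rw [hθ, Ideal.Quotient.eq_zero_iff_mem, RingHom.mem_ker]
    rw [Ideal.mem_span_singleton] at h1
    obtain ⟨z, hz⟩ := h1
    rw [hz, map_mul, map_natCast, pow_one, CharP.cast_eq_zero, zero_mul]
  · intro ℓ _ _
    rw [hθ, MvPolynomial.aeval_X]
  · intro ℓ hℓ hnd A hA σ hσ
    exact Lv.unramified ℓ hℓ (hsplit ℓ hnd).1 (hsplit ℓ hnd).2 σ ⟨A, hA, hσ⟩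
  · intro ℓ hℓ hnd A hA σ hσ
    have hS : ℓ ∉ (N * p).primeFactors := by
      rw [Nat.mem_primeFactors]
      tauto
    ext w
    have := Lv.eichlerShimura ℓ hℓ hS σ ⟨A, hA, hσ⟩ w
    simpa [Nat.cast_smul_eq_nsmul] using this

end Fermat.Agent.S29
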