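import Mathlib
import Fermat.Agent.S29.FromLevel
import Fermat.Agent.S29.FiniteSub

set_option autoImplicit false

/-!
# S29 from the first layer of a Hecke-Galois tower, without any finiteness hypothesis
-/

namespace Fermat.Agent.S29

open Polynomial

local notation "Qbar" => AlgebraicClosure ℚ
local notation "GQ" => (AlgebraicClosure ℚ ≃ₐ[ℚ] AlgebraicClosure ℚ)
local notation "Zbar" => integralClosure ℤ ℂ

/-- A monoid homomorphism out of `G_ℚ` of finite level has finite range. -/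
theorem finite_range_of_finiteLevel {X : Type*} [Monoid X] (ρ : GQ →* X)
    (hlev : ∃ L : IntermediateField ℚ Qbar, FiniteDimensional ℚ L ∧
      ∀ σ : GQ, (∀ x ∈ L, σ x = x) → ρ σ = 1) : (Set.range ρ).Finite := by
  obtain ⟨L, hL, h⟩ := hlev
  refine FiniteSub.finite_range_of_factor (β := L →ₐ[ℚ] Qbar) ρ
    (fun σ => (σ : Qbar →ₐ[ℚ] Qbar).comp L.val) ?_
  intro σ τ hστ
  have h1 : ρ (τ⁻¹ * σ) = 1 := by
    apply h
    intro x hx
    have h2 : σ x = τ x := DFunLike.congr_fun hστ ⟨x, hx⟩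
    show τ⁻¹ (σ x) = x
    rw [h2]
    exact τ.symm_apply_apply x
  have h3 : σ = τ * (τ⁻¹ * σ) := by group
  rw [h3, map_mul, h1, mul_one]

/-- **Interface I, second form**: the module need not be finite, it is enough that the ring acts
through finitely many maps. -/
theorem result_of_faithful' (hWC : WeakChebotarev)
    {N : ℕ} (hN : N ≠ 0) {g : CuspForm (CongruenceSubgroup.Gamma0 N) 2}
    {p : ℕ} (hp : p.Prime) {k : Type} [Field k] [CharP k p] (φ : Zbar →+* k)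
    {κ : Type*} [Field κ] [IsAlgClosed κ] [CharP κ p] (ι : κ →+* k) (c : ℕ → κ)
    (hc : ∀ ℓ : ℕ, ℓ.Prime → ¬ ℓ ∣ N * p →
      ∃ a : Zbar, (a : ℂ) = ModularFormClass.qCoeff g ℓ ∧ ι (c ℓ) = φ a)
    {R : Type*} [CommRing R] {M : Type*} [AddCommGroup M] [Module R M]
    (hact : (Set.range (fun (x : R) (m : M) => x • m)).Finite)
    (θ : R →+* κ) (hθ : ∀ x : R, (∀ m : M, x • m = 0) → θ x = 0)
    (T : ℕ → R) (hT : ∀ ℓ : ℕ, ℓ.Prime → ¬ ℓ ∣ N * p → θ (T ℓ) = c ℓ)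
    (ρ : GQ →* Module.End R M)
    (hlev : ∃ L : IntermediateField ℚ Qbar, FiniteDimensional ℚ L ∧
      ∀ σ : GQ, (∀ x ∈ L, σ x = x) → ρ σ = 1)
    (hunr : ∀ ℓ : ℕ, ℓ.Prime → ¬ ℓ ∣ N * p → ∀ A : ValuationSubring Qbar, A.LiesOverPrime ℓ →
      ∀ σ ∈ A.inertiaSubgroupIn ℚ, ρ σ = 1)
    (hES : ∀ ℓ : ℕ, ℓ.Prime → ¬ ℓ ∣ N * p → ∀ A : ValuationSubring Qbar, A.LiesOverPrime ℓ →
      ∀ σ : GQ, A.IsFrobeniusAt σ ℓ →
        ρ σ * ρ σ - T ℓ • ρ σ + (ℓ : R) • (1 : Module.End R M) = 0) :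
    ∃ ρ' : ResidualGaloisRep k, ρ'.IsAttachedTo g φ ∧
      ∀ ℓ : ℕ, ℓ.Prime → ¬ ℓ ∣ N * p → ρ'.IsUnramifiedAt ℓ := by
  obtain ⟨M', hfin, hstab, hfaith⟩ :=
    FiniteSub.exists_finite_faithful ρ (finite_range_of_finiteLevel ρ hlev) hact
  let ρ' : GQ →* Module.End R M' :=
    { toFun := fun σ => (ρ σ).restrict (hstab σ)
      map_one' := by
        ext x
        simp
      map_mul' := fun σ τ => by
        ext x
        simp }
  have hρ' : ∀ σ (x : M'), ((ρ' σ x : M') : M) = ρ σ (x : M) := fun _ _ => rfl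
  have hone : ∀ σ, ρ σ = 1 → ρ' σ = 1 := by
    intro σ h
    ext x
    rw [hρ', h, Module.End.one_apply, Module.End.one_apply]
  refine result_of_faithful hWC hN hp φ ι c hc (M := M') θ ?_ T hT ρ' ?_ ?_ ?_
  · intro x hx
    apply hθ
    apply hfaith
    intro m hm
    exact congrArg Subtype.val (hx ⟨m, hm⟩)
  · obtain ⟨L, hL, h⟩ := hlev
    exact ⟨L, hL, fun σ hσ => hone σ (h σ hσ)⟩
  · intro ℓ hℓ hnd A hA σ hσ
    exact hone σ (hunr ℓ hℓ hnd A hA σ hσ)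
  · intro ℓ hℓ hnd A hA σ hσ
    ext x
    have := congrArg (fun f : Module.End R M => f (x : M)) (hES ℓ hℓ hnd A hA σ hσ)
    simpa [hρ'] using this

section Good

open Fermat.Agent.S30

variable {N p : ℕ} {S : Finset ℕ} {𝒪 : Type} [CommRing 𝒪] {a : ℕ → 𝒪} {k : ℕ}

/-- The subalgebra of the abstract Hecke algebra generated by the variables at the primes
outside `S`. -/
noncomputable def goodAlg (S : Finset ℕ) : Subalgebra ℤ HA :=
  Algebra.adjoin ℤ {P | ∃ ℓ : ℕ, ℓ.Prime ∧ ℓ ∉ S ∧ P = MvPolynomial.X ℓ}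

theorem X_mem_goodAlg {S : Finset ℕ} {ℓ : ℕ} (hℓ : ℓ.Prime) (hS : ℓ ∉ S) :
    (MvPolynomial.X ℓ : HA) ∈ goodAlg S :=
  Algebra.subset_adjoin ⟨ℓ, hℓ, hS, rfl⟩

/-- The Eichler-Shimura relation solved for the Hecke operator. -/
theorem X_smul_eq (Lv : Level N p S a k) {ℓ : ℕ} (hℓ : ℓ.Prime) (hS : ℓ ∉ S) {σ : GQ}
    (hσ : IsFrob σ ℓ) (w : Lv.W) :
    (MvPolynomial.X ℓ : HA) • w = Lv.ρ σ w + (ℓ : ℕ) • Lv.ρ σ⁻¹ w := by
  have h1 : Lv.ρ σ (Lv.ρ σ⁻¹ w) = w := by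
    rw [← Module.End.mul_apply, ← map_mul, mul_inv_cancel, map_one, Module.End.one_apply]
  have h2 := Lv.eichlerShimura ℓ hℓ hS σ hσ (Lv.ρ σ⁻¹ w)
  rw [h1] at h2
  have h3 : Lv.ρ σ w + (ℓ : ℕ) • Lv.ρ σ⁻¹ w - (MvPolynomial.X ℓ : HA) • w = 0 := by
    rw [← h2]
    abel
  exact (sub_eq_zero.mp h3).symm

/-- The good part of the abstract Hecke algebra acts on a layer through finitely many maps. -/
theorem finite_range_goodAlg (hp : 0 < p) (hfrob : ∀ ℓ : ℕ, ℓ.Prime → ∃ σ : GQ, IsFrob σ ℓ)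
    (Lv : Level N p S a k) :
    (Set.range (fun (x : goodAlg S) (w : Lv.W) => x • w)).Finite := by
  let E := Module.End ℤ Lv.W
  let toE : HA →+* E := Module.toModuleEnd ℤ Lv.W
  have htoE : ∀ (P : HA) (w : Lv.W), toE P w = P • w := fun _ _ => rfl
  let ρE : GQ →* E :=
    { toFun := fun σ => (Lv.ρ σ).restrictScalars ℤ
      map_one' := by
        ext w
        show Lv.ρ 1 w = w
        rw [map_one, Module.End.one_apply]
      map_mul' := fun σ τ => by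
        ext w
        show Lv.ρ (σ * τ) w = Lv.ρ σ (Lv.ρ τ w)
        rw [map_mul, Module.End.mul_apply] }
  have hρE : ∀ σ (w : Lv.W), ρE σ w = Lv.ρ σ w := fun _ _ => rfl
  let B : Subalgebra ℤ E := Algebra.adjoin ℤ (Set.range ρE)
  have hρEfin : (Set.range ρE).Finite := by
    apply finite_range_of_finiteLevel
    obtain ⟨L, hL, h⟩ := Lv.finiteLevel
    refine ⟨L, hL, fun σ hσ => ?_⟩
    ext w
    rw [hρE, h σ hσ, Module.End.one_apply, Module.End.one_apply]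
  have hB : (B : Set E).Finite := by
    have h1 : Subalgebra.toSubmodule B = Submodule.span ℤ (Set.range ρE) := by
      rw [Algebra.adjoin_eq_span, ← MonoidHom.coe_mrange, Submonoid.closure_eq]
    have h2 : (B : Set E) = (Submodule.span ℤ (Set.range ρE) : Submodule ℤ E) := by
      rw [← h1]
      rfl
    rw [h2]
    refine FiniteSub.finite_span (FiniteSub.finite_range_zsmul (pow_pos hp k) ?_) hρEfin
    intro e
    ext w
    rw [LinearMap.smul_apply, Lv.pow_smul, LinearMap.zero_apply]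
  have hmem : ∀ x ∈ goodAlg S, toE x ∈ B := by
    intro x hx
    unfold goodAlg at hx
    induction hx using Algebra.adjoin_induction with
    | mem x hx =>
      obtain ⟨ℓ, hℓ, hS, rfl⟩ := hx
      obtain ⟨σ, hσ⟩ := hfrob ℓ hℓ
      have : toE (MvPolynomial.X ℓ) = ρE σ + (ℓ : ℕ) • ρE σ⁻¹ := by
        ext w
        rw [htoE, X_smul_eq Lv hℓ hS hσ, LinearMap.add_apply, LinearMap.smul_apply, hρE, hρE]
      rw [this]
      exact B.add_mem (Algebra.subset_adjoin ⟨σ, rfl⟩)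
        (B.nsmul_mem (Algebra.subset_adjoin ⟨σ⁻¹, rfl⟩) ℓ)
    | algebraMap r =>
      have : toE (algebraMap ℤ HA r) = algebraMap ℤ E r := by
        simp
      rw [this]
      exact B.algebraMap_mem r
    | add x y _ _ hx hy =>
      rw [map_add]
      exact B.add_mem hx hy
    | mul x y _ _ hx hy =>
      rw [map_mul]
      exact B.mul_mem hx hy
  refine (hB.image (fun (e : E) (w : Lv.W) => e w)).subset ?_
  rintro _ ⟨x, rfl⟩
  exact ⟨toE x, hmem x x.2, rfl⟩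

end Good

/-- **S29 from the first layer of a tower** (the same input as S30 at `k = 1`). -/
theorem result_of_level' (wc : Fermat.Agent.S30.WeakCheb)
    (hfrob : ∀ ℓ : ℕ, ℓ.Prime → ∃ σ : GQ, Fermat.Agent.S30.IsFrob σ ℓ)
    {N : ℕ} (hN : N ≠ 0) {g : CuspForm (CongruenceSubgroup.Gamma0 N) 2}
    {p : ℕ} (hp : p.Prime) {k : Type} [Field k] [CharP k p] (φ : Zbar →+* k)
    (a : ℕ → Zbar)
    (ha : ∀ ℓ : ℕ, ℓ.Prime → ¬ ℓ ∣ N * p → (a ℓ : ℂ) = ModularFormClass.qCoeff g ℓ)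
    (Lv : Fermat.Agent.S30.Level N p (N * p).primeFactors a 1) :
    ∃ ρ : ResidualGaloisRep k, ρ.IsAttachedTo g φ ∧
      ∀ ℓ : ℕ, ℓ.Prime → ¬ ℓ ∣ N * p → ρ.IsUnramifiedAt ℓ := by
  classical
  have hNp : N * p ≠ 0 := mul_ne_zero hN hp.ne_zero
  have hmax : (RingHom.ker φ).IsMaximal := Residue.ker_isMaximal hp φ
  let _ : Field (Zbar ⧸ RingHom.ker φ) := Ideal.Quotient.field (RingHom.ker φ)
  have hac : IsAlgClosed (Zbar ⧸ RingHom.ker φ) := Residue.isAlgClosed_quot (RingHom.ker φ)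
  let ι : (Zbar ⧸ RingHom.ker φ) →+* k := RingHom.kerLift φ
  have hι : ∀ x : Zbar, ι (Ideal.Quotient.mk (RingHom.ker φ) x) = φ x := fun x => rfl
  have hchar : CharP (Zbar ⧸ RingHom.ker φ) p := (RingHom.charP_iff ι ι.injective p).mpr inferInstance
  let R₀ := goodAlg (N * p).primeFactors
  let θ : R₀ →+* (Zbar ⧸ RingHom.ker φ) :=
    ((Ideal.Quotient.mk (RingHom.ker φ)).comp
      (MvPolynomial.aeval a : _ →ₐ[ℤ] Zbar).toRingHom).comp R₀.val.toRingHom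
  have hθ : ∀ P : R₀, θ P = Ideal.Quotient.mk (RingHom.ker φ)
      (MvPolynomial.aeval a (P : Fermat.Agent.S30.HA)) := fun P => rfl
  have hsplit : ∀ ℓ : ℕ, ¬ ℓ ∣ N * p → ¬ ℓ ∣ N ∧ ℓ ≠ p := by
    intro ℓ h
    exact ⟨fun h' => h (Dvd.dvd.mul_right h' p), fun h' => h (h' ▸ dvd_mul_left _ _)⟩
  have hgood : ∀ ℓ : ℕ, ℓ.Prime → ¬ ℓ ∣ N * p → ℓ ∉ (N * p).primeFactors := by
    intro ℓ hℓ hnd
    rw [Nat.mem_primeFactors]
    tauto
  let T : ℕ → R₀ := fun ℓ =>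
    if h : ℓ.Prime ∧ ¬ ℓ ∣ N * p then ⟨MvPolynomial.X ℓ, X_mem_goodAlg h.1 (hgood ℓ h.1 h.2)⟩ else 0
  have hT : ∀ ℓ : ℕ, ℓ.Prime → ¬ ℓ ∣ N * p →
      ((T ℓ : R₀) : Fermat.Agent.S30.HA) = MvPolynomial.X ℓ := by
    intro ℓ hℓ hnd
    simp only [T, dif_pos (And.intro hℓ hnd)]
  let ρ₀ : GQ →* Module.End R₀ Lv.W :=
    { toFun := fun σ => (Lv.ρ σ).restrictScalars R₀
      map_one' := by
        ext w
        show Lv.ρ 1 w = w
        rw [map_one, Module.End.one_apply]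
      map_mul' := fun σ τ => by
        ext w
        show Lv.ρ (σ * τ) w = Lv.ρ σ (Lv.ρ τ w)
        rw [map_mul, Module.End.mul_apply] }
  have hρ₀ : ∀ σ (w : Lv.W), ρ₀ σ w = Lv.ρ σ w := fun _ _ => rfl
  have hone : ∀ σ, Lv.ρ σ = 1 → ρ₀ σ = 1 := by
    intro σ h
    ext w
    rw [hρ₀, h, Module.End.one_apply, Module.End.one_apply]
  refine result_of_faithful' (weakChebotarev_of wc) hN hp φ ι
    (fun ℓ => Ideal.Quotient.mk (RingHom.ker φ) (a ℓ)) ?_ (M := Lv.W)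
    (finite_range_goodAlg hp.pos hfrob Lv) θ ?_ T ?_ ρ₀ ?_ ?_ ?_
  · intro ℓ hℓ hnd
    exact ⟨a ℓ, ha ℓ hℓ hnd, hι _⟩
  · intro P hP
    have h1 := Lv.faithful (P : Fermat.Agent.S30.HA) hP
    rw [hθ, Ideal.Quotient.eq_zero_iff_mem, RingHom.mem_ker]
    rw [Ideal.mem_span_singleton] at h1
    obtain ⟨z, hz⟩ := h1
    rw [hz, map_mul, map_natCast, pow_one, CharP.cast_eq_zero, zero_mul]
  · intro ℓ hℓ hnd
    rw [hθ, hT ℓ hℓ hnd, MvPolynomial.aeval_X]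
  · obtain ⟨L, hL, h⟩ := Lv.finiteLevel
    exact ⟨L, hL, fun σ hσ => hone σ (h σ hσ)⟩
  · intro ℓ hℓ hnd A hA σ hσ
    exact hone σ (Lv.unramified ℓ hℓ (hsplit ℓ hnd).1 (hsplit ℓ hnd).2 σ ⟨A, hA, hσ⟩)
  · intro ℓ hℓ hnd A hA σ hσ
    ext w
    have h1 := Lv.eichlerShimura ℓ hℓ (hgood ℓ hℓ hnd) σ ⟨A, hA, hσ⟩ w
    have h2 : (T ℓ) • (Lv.ρ σ w) = (MvPolynomial.X ℓ : Fermat.Agent.S30.HA) • (Lv.ρ σ w) := by
      rw [← hT ℓ hℓ hnd]
      rfl
    simp only [LinearMap.add_apply, LinearMap.sub_apply, Module.End.mul_apply,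
      LinearMap.smul_apply, Module.End.one_apply, LinearMap.zero_apply, hρ₀, h2]
    rw [Nat.cast_smul_eq_nsmul]
    exact h1

end Fermat.Agent.S29
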