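import Mathlib
import Fermat.Agent.S29.FromTower
import Fermat.Agent.S29.Eigen
import Fermat.Agent.GAL.Tower.WithH
import Fermat.Agent.Lib.Frobenius

set_option autoImplicit false

/-!
# S29 from Kummer packages (the contract of cluster GAL)
-/

namespace Fermat.Agent.S29

open CuspForm Fermat.Agent.GAL.Tower Fermat.Agent.S29.Eigen

local notation "Qbar" => AlgebraicClosure ℚ
local notation "GQ" => (AlgebraicClosure ℚ ≃ₐ[ℚ] AlgebraicClosure ℚ)
local notation "Zbar" => integralClosure ℤ ℂ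

theorem isIntegrallyClosed_Zbar : IsIntegrallyClosed Zbar :=
  IsIntegrallyClosed.of_isIntegrallyClosedIn Zbar ℂ

theorem exists_isFrob (ℓ : ℕ) (hℓ : ℓ.Prime) : ∃ σ : GQ, Fermat.Agent.S30.IsFrob σ ℓ := by
  obtain ⟨A, σ, hA, hσ⟩ := Fermat.Agent.Lib.Frobenius.exists_liesOverPrime_isFrobeniusAt ℓ hℓ
  exact ⟨σ, A, hA, hσ⟩

/-- **S29 from one Kummer package** (level `N`, exponent `p`). -/
theorem result_of_package {N : ℕ} [NeZero N] {g : CuspForm (CongruenceSubgroup.Gamma0 N) 2}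
    (hg : g.IsNormalizedEigenform) {p : ℕ} (hp : p.Prime) (pk : KummerPackage N (p ^ 1))
    {k : Type} [Field k] [CharP k p] (φ : Zbar →+* k) :
    ∃ ρ : ResidualGaloisRep k, ρ.IsAttachedTo g φ ∧
      ∀ ℓ : ℕ, ℓ.Prime → ¬ ℓ ∣ N * p → ρ.IsUnramifiedAt ℓ := by
  have hN : N ≠ 0 := NeZero.ne N
  have hic : IsIntegrallyClosed Zbar := isIntegrallyClosed_Zbar
  have hNp : N * p ≠ 0 := mul_ne_zero hN hp.ne_zero
  let S : Finset ℕ := (N * p).primeFactors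
  have hpS : p ∈ S := Nat.mem_primeFactors.mpr ⟨hp, dvd_mul_left _ _, hNp⟩
  have hNS : ∀ q : ℕ, q.Prime → q ∣ N → q ∈ S := fun q hq hqN =>
    Nat.mem_primeFactors.mpr ⟨hq, Dvd.dvd.mul_right hqN p, hNp⟩
  let χ : heckeAlgebra N 2 (↑S : Set ℕ) →+* Zbar := eigenCharZ hg (↑S : Set ℕ)
  obtain ⟨Lv⟩ := nonempty_level_of_package hp hpS hNS χ 1 pk
  refine result_of_level' weakCheb exists_isFrob hN hp φ (Fermat.Agent.S30.aOf χ) ?_ Lv
  intro ℓ hℓ hnd
  have hℓN : ¬ ℓ ∣ N := fun h => hnd (Dvd.dvd.mul_right h p)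
  have hℓS : ℓ ∉ (↑S : Set ℕ) := by
    intro h
    exact hnd (Nat.dvd_of_mem_primeFactors (Finset.mem_coe.mp h))
  rw [Fermat.Agent.S30.aOf_eq χ hℓ hℓN hℓS, coe_eigenCharZ, eigenChar_T]

/-- **S29 from Kummer packages.** -/
theorem result_of_packages
    (pk : ∀ (N : ℕ) [NeZero N] (n : ℕ), 0 < n → Nonempty (KummerPackage N n))
    {N : ℕ} {g : CuspForm (CongruenceSubgroup.Gamma0 N) 2} (hg : g.IsNormalizedEigenform)
    {p : ℕ} (hp : p.Prime) {k : Type} [Field k] [CharP k p] (φ : Zbar →+* k) :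
    ∃ ρ : ResidualGaloisRep k, ρ.IsAttachedTo g φ ∧
      ∀ ℓ : ℕ, ℓ.Prime → ¬ ℓ ∣ N * p → ρ.IsUnramifiedAt ℓ := by
  by_cases hN : N = 0
  · subst hN
    exact result_zero φ
  · have : NeZero N := ⟨hN⟩
    exact result_of_package hg hp (pk N (p ^ 1) (pow_pos hp.pos 1)).some φ

end Fermat.Agent.S29
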