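import Mathlib

/-!
# The quadratic-relation lemma

Let `κ` be a field, `ρ : G →* End κ V` a nonzero finite dimensional
representation and `d : G →* κˣ` a character such that every `ρ g` satisfies a relation
`ρ g ^ 2 - t • ρ g + d g = 0` where `X ^ 2 - t X + d g` has a root in `κ`.  Then there is a two dimensional representation `ρ'` such that
whenever `ρ g ^ 2 - t • ρ g + d g = 0` the characteristic polynomial of `ρ' g` is
`X ^ 2 - t X + d g`.
-/

set_option autoImplicit false

namespace Fermat.Agent.S29.Quad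

open Polynomial Module

section core

variable {κ : Type*} [Field κ] {G : Type*} [Group G] {U : Type*} [AddCommGroup U] [Module κ U]

/-- The quadratic relation `ρ g ^ 2 - t ρ g + d g = 0`. -/
def Rel (ρ : G →* Module.End κ U) (d : G →* κˣ) (g : G) (t : κ) : Prop :=
  ρ g * ρ g - t • ρ g + ((d g : κˣ) : κ) • (1 : Module.End κ U) = 0

variable {ρ : G →* Module.End κ U} {d : G →* κˣ}

theorem Rel.apply {g : G} {t : κ} (h : Rel ρ d g t) (x : U) :
    ρ g (ρ g x) = t • ρ g x - ((d g : κˣ) : κ) • x := by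
  have := congrArg (fun f : Module.End κ U => f x) h
  simp only [LinearMap.add_apply, LinearMap.sub_apply, Module.End.mul_apply, LinearMap.smul_apply,
    Module.End.one_apply, LinearMap.zero_apply] at this
  rw [eq_sub_iff_add_eq, ← sub_eq_zero]
  rw [← this]; abel

theorem rho_inv_apply (g : G) (x : U) : ρ g (ρ g⁻¹ x) = x := by
  rw [← Module.End.mul_apply, ← map_mul, mul_inv_cancel, map_one, Module.End.one_apply]

theorem rho_inv_apply' (g : G) (x : U) : ρ g⁻¹ (ρ g x) = x := by
  rw [← Module.End.mul_apply, ← map_mul, inv_mul_cancel, map_one, Module.End.one_apply]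

theorem Rel.inv_apply {g : G} {t : κ} (h : Rel ρ d g t) (x : U) :
    ((d g : κˣ) : κ) • ρ g⁻¹ x = t • x - ρ g x := by
  have := h.apply (ρ g⁻¹ x)
  rw [rho_inv_apply] at this
  rw [this]; abel

/-- The basic identity obtained from the anti-involution `g ↦ d g • g⁻¹`. -/
theorem Rel.star {g h : G} {tg th tgh : κ} (hg : Rel ρ d g tg) (hh : Rel ρ d h th)
    (hgh : Rel ρ d (g * h) tgh) (x : U) :
    ρ g (ρ h x) = (tgh - tg * th) • x + th • ρ g x + tg • ρ h x - ρ h (ρ g x) := by
  have h1 := hgh.inv_apply x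
  have h2 : ((d (g * h) : κˣ) : κ) • ρ (g * h)⁻¹ x
      = ((d h : κˣ) : κ) • ρ h⁻¹ (((d g : κˣ) : κ) • ρ g⁻¹ x) := by
    rw [mul_inv_rev, map_mul, map_mul, Module.End.mul_apply, Units.val_mul, map_smul, smul_smul,
      mul_comm]
  rw [hg.inv_apply, hh.inv_apply] at h2
  rw [h2, map_mul, Module.End.mul_apply] at h1
  have h3 : ρ g (ρ h x) = tgh • x - (th • (tg • x - ρ g x) - ρ h (tg • x - ρ g x)) := by
    rw [h1]; abel
  rw [h3, map_sub, map_smul, smul_sub, smul_smul, sub_smul, mul_comm tg th]
  abel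

/-- If `u` is an eigenvector of `ρ g` with eigenvalue `α`, then `ρ g - (t - α)` maps the span of
the orbit of `u` into the line `κ u`. -/
theorem range_le_span (hq : ∀ g, ∃ t, Rel ρ d g t)
    {u : U} (hirr : Submodule.span κ (Set.range fun h => ρ h u) = ⊤)
    {g : G} {t α : κ} (hg : Rel ρ d g t) (hu : ρ g u = α • u) (x : U) :
    ρ g x - (t - α) • x ∈ Submodule.span κ {u} := by
  have hx : x ∈ Submodule.span κ (Set.range fun h => ρ h u) := by rw [hirr]; trivial
  induction hx using Submodule.span_induction with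
  | mem x hx =>
    obtain ⟨h, rfl⟩ := hx
    obtain ⟨th, hh⟩ := hq h
    obtain ⟨tgh, hgh⟩ := hq (g * h)
    have := hg.star hh hgh u
    rw [Submodule.mem_span_singleton]
    refine ⟨tgh - t * th + th * α, ?_⟩
    simp only
    rw [this, hu, map_smul, add_smul, sub_smul (t) α, smul_smul]
    abel
  | zero => simp
  | add x y _ _ hx hy =>
    have : ρ g (x + y) - (t - α) • (x + y)
        = (ρ g x - (t - α) • x) + (ρ g y - (t - α) • y) := by
      rw [map_add, smul_add]; abel
    rw [this]; exact Submodule.add_mem _ hx hy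
  | smul c x _ hx =>
    have : ρ g (c • x) - (t - α) • (c • x) = c • (ρ g x - (t - α) • x) := by
      rw [map_smul, smul_sub, smul_comm]
    rw [this]; exact Submodule.smul_mem _ _ hx

/-- `ρ g` acts as a scalar. -/
def IsScalar (f : Module.End κ U) : Prop := ∃ c : κ, ∀ x, f x = c • x

theorem finrank_le_two_of_not_isScalar [FiniteDimensional κ U]
    (hq : ∀ g, ∃ t, Rel ρ d g t)
    (hirr : ∀ u : U, u ≠ 0 → Submodule.span κ (Set.range fun h => ρ h u) = ⊤)
    {g : G} {t α : κ} (ht : Rel ρ d g t) (hα : α * α - t * α + ((d g : κˣ) : κ) = 0)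
    (hg : ¬ IsScalar (ρ g)) : finrank κ U ≤ 2 := by
  by_contra hlt
  rw [not_le] at hlt
  obtain ⟨u, hu0, hgu⟩ : ∃ u : U, u ≠ 0 ∧ ρ g u = α • u := by
    by_contra hcon
    apply hg
    refine ⟨t - α, fun x => ?_⟩
    by_contra hx
    apply hcon
    refine ⟨ρ g x - (t - α) • x, sub_ne_zero.mpr hx, ?_⟩
    rw [map_sub, map_smul, ht.apply]
    have hd : ((d g : κˣ) : κ) = t * α - α * α := by linear_combination hα
    rw [hd]
    module
  set L : Module.End κ U := ρ g - (t - α) • (1 : Module.End κ U) with hL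
  have hLx : ∀ x, L x = ρ g x - (t - α) • x := fun x => by simp [hL]
  have hrange : LinearMap.range L ≤ Submodule.span κ {u} := by
    rintro _ ⟨x, rfl⟩
    rw [hLx]
    exact range_le_span hq (hirr u hu0) ht hgu x
  have hr1 : finrank κ (LinearMap.range L) ≤ 1 :=
    (Submodule.finrank_mono hrange).trans (finrank_span_singleton hu0).le
  have hker : 2 ≤ finrank κ (LinearMap.ker L) := by
    have := LinearMap.finrank_range_add_finrank_ker L
    omega
  -- two independent eigenvectors for `t - α`
  have hne : LinearMap.ker L ≠ ⊥ := by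
    intro h; rw [h, finrank_bot] at hker; omega
  obtain ⟨u1, hu1, hu10⟩ := Submodule.exists_mem_ne_zero_of_ne_bot hne
  have hnle : ¬ LinearMap.ker L ≤ Submodule.span κ {u1} := by
    intro h
    have := (Submodule.finrank_mono h).trans (finrank_span_singleton hu10).le
    omega
  obtain ⟨u2, hu2, hu2n⟩ := SetLike.not_le_iff_exists.mp hnle
  have hu20 : u2 ≠ 0 := by
    rintro rfl; exact hu2n (Submodule.zero_mem _)
  have e1 : ρ g u1 = (t - α) • u1 := by
    have := LinearMap.mem_ker.mp hu1; rw [hLx, sub_eq_zero] at this; exact this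
  have e2 : ρ g u2 = (t - α) • u2 := by
    have := LinearMap.mem_ker.mp hu2; rw [hLx, sub_eq_zero] at this; exact this
  apply hg
  refine ⟨t - (t - α), fun x => ?_⟩
  have m1 := range_le_span hq (hirr u1 hu10) ht e1 x
  have m2 := range_le_span hq (hirr u2 hu20) ht e2 x
  rw [Submodule.mem_span_singleton] at m1 m2
  obtain ⟨c1, hc1⟩ := m1
  obtain ⟨c2, hc2⟩ := m2
  by_cases hc : c2 = 0
  · rw [hc, zero_smul] at hc2
    exact (sub_eq_zero.mp hc2.symm)
  · exfalso
    apply hu2n
    rw [Submodule.mem_span_singleton]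
    refine ⟨c2⁻¹ * c1, ?_⟩
    rw [mul_smul, hc1, ← hc2, smul_smul, inv_mul_cancel₀ hc, one_smul]

theorem finrank_le_one_of_isScalar [FiniteDimensional κ U] [Nontrivial U]
    (hirr : ∀ u : U, u ≠ 0 → Submodule.span κ (Set.range fun h => ρ h u) = ⊤)
    (hs : ∀ g, IsScalar (ρ g)) : finrank κ U ≤ 1 := by
  obtain ⟨u, hu⟩ := exists_ne (0 : U)
  have h1 : (⊤ : Submodule κ U) ≤ Submodule.span κ {u} := by
    rw [← hirr u hu, Submodule.span_le]
    rintro _ ⟨h, rfl⟩
    obtain ⟨c, hc⟩ := hs h
    simp only [hc]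
    exact Submodule.smul_mem _ _ (Submodule.mem_span_singleton_self u)
  calc finrank κ U = finrank κ (⊤ : Submodule κ U) := (finrank_top κ U).symm
    _ ≤ finrank κ (Submodule.span κ {u}) := Submodule.finrank_mono h1
    _ ≤ 1 := (finrank_span_singleton hu).le

/-- A non scalar endomorphism of a plane killed by a monic quadratic polynomial has this
polynomial as characteristic polynomial. -/
theorem charpoly_of_not_isScalar [FiniteDimensional κ U] (h2 : finrank κ U = 2)
    {f : Module.End κ U} {t e : κ} (hf : f * f - t • f + e • (1 : Module.End κ U) = 0)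
    (hns : ¬ IsScalar f) : f.charpoly = X ^ 2 - C t * X + C e := by
  have hP : (X ^ 2 - C t * X + C e : κ[X]) = X ^ 2 + (C (-t) * X + C e) := by
    rw [C_neg]; ring
  have hdeg1 : (C (-t) * X + C e : κ[X]).degree < 2 :=
    lt_of_le_of_lt degree_linear_le (by norm_num)
  have hPmonic : (X ^ 2 - C t * X + C e : κ[X]).Monic := by
    rw [hP]; exact monic_X_pow_add (by simpa using hdeg1)
  have hPdeg : (X ^ 2 - C t * X + C e : κ[X]).natDegree = 2 := by
    rw [hP, natDegree_add_eq_left_of_degree_lt, natDegree_X_pow]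
    rw [degree_X_pow]; exact hdeg1
  have hcm : f.charpoly.Monic := f.charpoly_monic
  have hcd : f.charpoly.natDegree = 2 := by rw [f.charpoly_natDegree, h2]
  have hlt : (f.charpoly - (X ^ 2 - C t * X + C e)).degree < f.charpoly.degree := by
    apply degree_sub_lt_left
    · rw [degree_eq_natDegree hcm.ne_zero, degree_eq_natDegree hPmonic.ne_zero, hcd, hPdeg]
    · exact hcm.ne_zero
    · rw [hcm.leadingCoeff, hPmonic.leadingCoeff]
  have hle : (f.charpoly - (X ^ 2 - C t * X + C e)).natDegree ≤ 1 := by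
    rw [degree_eq_natDegree hcm.ne_zero, hcd] at hlt
    by_cases h0 : f.charpoly - (X ^ 2 - C t * X + C e) = 0
    · rw [h0]; simp
    · rw [degree_eq_natDegree h0] at hlt
      have : (f.charpoly - (X ^ 2 - C t * X + C e)).natDegree < 2 := by exact_mod_cast hlt
      omega
  obtain ⟨a, b, hab⟩ := exists_eq_X_add_C_of_natDegree_le_one hle
  have hev : aeval f (f.charpoly - (X ^ 2 - C t * X + C e)) = 0 := by
    rw [map_sub, f.aeval_self_charpoly, zero_sub, neg_eq_zero]
    simp only [map_add, map_sub, map_pow, map_mul, aeval_X, aeval_C]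
    rw [← hf, pow_two, Algebra.algebraMap_eq_smul_one, Algebra.algebraMap_eq_smul_one,
      smul_mul_assoc, one_mul]
  rw [hab] at hev
  simp only [map_add, map_mul, aeval_X, aeval_C] at hev
  rw [Algebra.algebraMap_eq_smul_one, Algebra.algebraMap_eq_smul_one, smul_mul_assoc,
    one_mul] at hev
  have ha : a = 0 := by
    by_contra ha
    apply hns
    refine ⟨-(a⁻¹ * b), fun x => ?_⟩
    have := congrArg (fun F : Module.End κ U => a⁻¹ • F x) hev
    simp only [LinearMap.add_apply, LinearMap.smul_apply, Module.End.one_apply,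
      LinearMap.zero_apply, smul_zero, smul_add, smul_smul, inv_mul_cancel₀ ha, one_smul] at this
    rw [neg_smul]
    exact eq_neg_of_add_eq_zero_left this
  have hb : b = 0 := by
    rw [ha, zero_smul, zero_add] at hev
    have hnt : Nontrivial U := by
      apply Module.nontrivial_of_finrank_pos (R := κ); omega
    obtain ⟨x, hx⟩ := exists_ne (0 : U)
    have := congrArg (fun F : Module.End κ U => F x) hev
    simp only [LinearMap.smul_apply, Module.End.one_apply, LinearMap.zero_apply] at this
    exact (smul_eq_zero.mp this).resolve_right hx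
  rw [ha, hb] at hab
  simp only [map_zero, zero_mul, add_zero] at hab
  exact sub_eq_zero.mp hab

/-- The characteristic polynomial of a scalar endomorphism of a plane. -/
theorem charpoly_of_scalar [FiniteDimensional κ U] (h2 : finrank κ U = 2)
    {f : Module.End κ U} {c : κ} (hf : ∀ x, f x = c • x) :
    f.charpoly = X ^ 2 - C (2 * c) * X + C (c ^ 2) := by
  have hfe : f = c • (1 : Module.End κ U) := by
    ext x; simp [hf]
  let b := Module.finBasisOfFinrankEq κ U h2
  rw [← LinearMap.charpoly_toMatrix f b, Matrix.charpoly_fin_two, hfe]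
  have : LinearMap.toMatrix b b (c • (1 : Module.End κ U)) = c • (1 : Matrix (Fin 2) (Fin 2) κ) := by
    rw [map_smul]
    congr 1
    exact LinearMap.toMatrix_one b
  rw [this]
  have h1 : Matrix.trace (c • (1 : Matrix (Fin 2) (Fin 2) κ)) = 2 * c := by
    simp [mul_comm]
  have h3 : Matrix.det (c • (1 : Matrix (Fin 2) (Fin 2) κ)) = c ^ 2 := by
    simp [pow_two]
  rw [h1, h3]

/-- In an irreducible plane the relation determines the characteristic polynomial. -/
theorem charpoly_of_irr [FiniteDimensional κ U] (h2 : finrank κ U = 2)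
    (hq : ∀ g, ∃ t, Rel ρ d g t)
    (hirr : ∀ u : U, u ≠ 0 → Submodule.span κ (Set.range fun h => ρ h u) = ⊤)
    {g : G} {t : κ} (hg : Rel ρ d g t) :
    (ρ g).charpoly = X ^ 2 - C t * X + C ((d g : κˣ) : κ) := by
  have hnt : Nontrivial U := by
    apply Module.nontrivial_of_finrank_pos (R := κ); omega
  by_cases hs : IsScalar (ρ g)
  · obtain ⟨c, hc⟩ := hs
    obtain ⟨h, hh⟩ : ∃ h, ¬ IsScalar (ρ h) := by
      by_contra hall
      have hall' : ∀ h, IsScalar (ρ h) := fun h => by
        by_contra hcon; exact hall ⟨h, hcon⟩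
      have := finrank_le_one_of_isScalar hirr hall'
      omega
    obtain ⟨th, hth⟩ := hq h
    obtain ⟨tgh, htgh⟩ := hq (g * h)
    have key : ∀ x, (c ^ 2 * th - tgh * c) • ρ h x
        = ((c ^ 2 - ((d g : κˣ) : κ)) * ((d h : κˣ) : κ)) • x := by
      intro x
      have h1 := htgh.apply x
      have h2' : ∀ y, ρ (g * h) y = c • ρ h y := fun y => by
        rw [map_mul, Module.End.mul_apply, hc]
      rw [h2', h2', map_smul, hth.apply, map_mul, Units.val_mul] at h1
      have h3 : c • c • (th • ρ h x - ((d h : κˣ) : κ) • x) - tgh • c • ρ h x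
          + (((d g : κˣ) : κ) * ((d h : κˣ) : κ)) • x = 0 := by
        rw [h1]; abel
      rw [← sub_eq_zero, ← h3]
      module
    have hA : c ^ 2 * th - tgh * c = 0 := by
      by_contra hA
      apply hh
      refine ⟨(c ^ 2 * th - tgh * c)⁻¹ * ((c ^ 2 - ((d g : κˣ) : κ)) * ((d h : κˣ) : κ)),
        fun x => ?_⟩
      rw [mul_smul, ← key x, smul_smul, inv_mul_cancel₀ hA, one_smul]
    obtain ⟨x, hx⟩ := exists_ne (0 : U)
    have hd : c ^ 2 = ((d g : κˣ) : κ) := by
      have := key x
      rw [hA, zero_smul] at this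
      have h0 := (smul_eq_zero.mp this.symm).resolve_right hx
      have := (mul_eq_zero.mp h0).resolve_right (d h).ne_zero
      exact sub_eq_zero.mp this
    have hc0 : c ≠ 0 := by
      rintro rfl
      exact (d g).ne_zero (by rw [← hd]; simp)
    have ht : t = 2 * c := by
      have h1 := hg.apply x
      rw [hc, hc, ← hd, smul_smul, smul_smul, ← sub_smul] at h1
      have h2' := smul_left_injective κ hx h1
      have h3 : c * (t - 2 * c) = 0 := by linear_combination -h2'
      have := (mul_eq_zero.mp h3).resolve_left hc0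
      exact sub_eq_zero.mp this
    rw [charpoly_of_scalar h2 hc, ht, hd]
  · exact charpoly_of_not_isScalar h2 hg hs

theorem exists_dvd_pow (t e : κ) (n : ℕ) :
    ∃ s : κ, (X ^ 2 - C t * X + C e : κ[X]) ∣ X ^ (2 * n) - C s * X ^ n + C (e ^ n) := by
  have key : ∀ n : ℕ,
      (∃ s : κ, (X ^ 2 - C t * X + C e : κ[X]) ∣ X ^ (2 * n) - C s * X ^ n + C (e ^ n)) ∧
      (∃ s : κ, (X ^ 2 - C t * X + C e : κ[X]) ∣
        X ^ (2 * (n + 1)) - C s * X ^ (n + 1) + C (e ^ (n + 1))) := by
    intro n
    induction n with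
    | zero =>
      refine ⟨⟨2, ?_⟩, ⟨t, ?_⟩⟩
      · have : (X ^ (2 * 0) - C 2 * X ^ 0 + C (e ^ 0) : κ[X]) = 0 := by
          simp only [mul_zero, pow_zero, mul_one, map_one]
          rw [show (C (2 : κ) : κ[X]) = 2 from map_ofNat C 2]
          ring
        rw [this]; exact dvd_zero _
      · simp
    | succ n ih =>
      obtain ⟨⟨s0, h0⟩, ⟨s1, h1⟩⟩ := ih
      refine ⟨⟨s1, h1⟩, ⟨t * s1 - e * s0, ?_⟩⟩
      have : (X ^ (2 * (n + 1 + 1)) - C (t * s1 - e * s0) * X ^ (n + 1 + 1) + C (e ^ (n + 1 + 1))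
          : κ[X]) = (X ^ 2 - C t * X + C e) * (X ^ (2 * n + 2) + C e ^ (n + 1))
            + C t * X * (X ^ (2 * (n + 1)) - C s1 * X ^ (n + 1) + C (e ^ (n + 1)))
            - C e * X ^ 2 * (X ^ (2 * n) - C s0 * X ^ n + C (e ^ n)) := by
        simp only [map_sub, map_mul, map_pow]
        ring
      rw [this]
      exact dvd_sub (dvd_add (dvd_mul_right _ _) (dvd_mul_of_dvd_right h1 _))
        (dvd_mul_of_dvd_right h0 _)
  exact (key n).1

/-- The quadratic relation (with a root) passes to powers. -/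
theorem Rel.pow {g : G} {t α : κ} (h : Rel ρ d g t)
    (hα : α * α - t * α + ((d g : κˣ) : κ) = 0) (n : ℕ) :
    ∃ t' α', Rel ρ d (g ^ n) t' ∧ α' * α' - t' * α' + ((d (g ^ n) : κˣ) : κ) = 0 := by
  obtain ⟨s, R, hR⟩ := exists_dvd_pow t ((d g : κˣ) : κ) n
  refine ⟨s, α ^ n, ?_, ?_⟩
  · have h1 := congrArg (aeval (ρ g)) hR
    have h2 : aeval (ρ g) (X ^ 2 - C t * X + C ((d g : κˣ) : κ) : κ[X]) = 0 := by
      simp only [map_add, map_sub, map_pow, map_mul, aeval_X, aeval_C]
      rw [← h, pow_two, Algebra.algebraMap_eq_smul_one, Algebra.algebraMap_eq_smul_one,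
        smul_mul_assoc, one_mul]
    rw [map_mul, h2, zero_mul] at h1
    simp only [map_add, map_sub, map_pow, map_mul, aeval_X, aeval_C] at h1
    unfold Rel
    rw [← h1, map_pow, map_pow, Units.val_pow_eq_pow_val, ← pow_add, two_mul,
      Algebra.algebraMap_eq_smul_one, Algebra.algebraMap_eq_smul_one, smul_mul_assoc, one_mul,
      _root_.smul_pow, one_pow]
  · have h1 := congrArg (eval α) hR
    have h2 : eval α (X ^ 2 - C t * X + C ((d g : κˣ) : κ) : κ[X]) = 0 := by
      simp only [eval_add, eval_sub, eval_pow, eval_mul, eval_X, eval_C]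
      rw [← hα]; ring
    rw [eval_mul, h2, zero_mul] at h1
    simp only [eval_add, eval_sub, eval_pow, eval_mul, eval_X, eval_C] at h1
    rw [map_pow, Units.val_pow_eq_pow_val, ← h1]
    ring

end core

section main

variable {κ : Type} [Field κ] {G : Type*} [Group G] {V : Type} [AddCommGroup V] [Module κ V]

/-- Restriction of a representation to an invariant subspace. -/
def restr (ρ : G →* Module.End κ V) (U : Submodule κ V) (hU : ∀ g, ∀ x ∈ U, ρ g x ∈ U) :
    G →* Module.End κ U where
  toFun g := (ρ g).restrict (hU g)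
  map_one' := by ext x; simp
  map_mul' g h := by ext x; simp

@[simp] theorem restr_apply (ρ : G →* Module.End κ V) (U : Submodule κ V)
    (hU : ∀ g, ∀ x ∈ U, ρ g x ∈ U) (g : G) (x : U) :
    ((restr ρ U hU g x : U) : V) = ρ g x := rfl

theorem exists_minimal_invariant [FiniteDimensional κ V] [Nontrivial V]
    (ρ : G →* Module.End κ V) :
    ∃ U : Submodule κ V, U ≠ ⊥ ∧ (∀ g, ∀ x ∈ U, ρ g x ∈ U) ∧
      ∀ u ∈ U, u ≠ 0 → Submodule.span κ (Set.range fun h => ρ h u) = U := by
  let S : Set (Submodule κ V) := {U | U ≠ ⊥ ∧ ∀ g, ∀ x ∈ U, ρ g x ∈ U}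
  have hS : S.Nonempty := ⟨⊤, top_ne_bot, fun _ _ _ => trivial⟩
  obtain ⟨U, hUS, hmin⟩ := (wellFounded_lt (α := Submodule κ V)).has_min S hS
  refine ⟨U, hUS.1, hUS.2, fun u hu hu0 => ?_⟩
  have hle : Submodule.span κ (Set.range fun h => ρ h u) ≤ U := by
    rw [Submodule.span_le]
    rintro _ ⟨h, rfl⟩
    exact hUS.2 h u hu
  have hmem : Submodule.span κ (Set.range fun h => ρ h u) ∈ S := by
    constructor
    · intro hbot
      have : u ∈ Submodule.span κ (Set.range fun h => ρ h u) :=
        Submodule.subset_span ⟨1, by simp⟩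
      rw [hbot, Submodule.mem_bot] at this
      exact hu0 this
    · intro g x hx
      induction hx using Submodule.span_induction with
      | mem x hx =>
        obtain ⟨h, rfl⟩ := hx
        exact Submodule.subset_span ⟨g * h, by simp⟩
      | zero => simp
      | add x y _ _ hx hy => rw [map_add]; exact Submodule.add_mem _ hx hy
      | smul c x _ hx => rw [map_smul]; exact Submodule.smul_mem _ _ hx
  exact eq_of_le_of_not_lt hle (hmin _ hmem)

theorem Rel.restr {ρ : G →* Module.End κ V} {d : G →* κˣ} {g : G} {t : κ} (h : Rel ρ d g t)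
    (U : Submodule κ V) (hU : ∀ g, ∀ x ∈ U, ρ g x ∈ U) : Rel (restr ρ U hU) d g t := by
  unfold Rel
  ext x
  have := h.apply (x : V)
  simp only [LinearMap.add_apply, LinearMap.sub_apply, Module.End.mul_apply, LinearMap.smul_apply,
    Module.End.one_apply, LinearMap.zero_apply, Submodule.coe_add, Submodule.coe_sub,
    Submodule.coe_smul, restr_apply, Submodule.coe_zero]
  rw [this]; abel

/-- The diagonal representation attached to two characters. -/
def diagRep (ψ δ : G →* κ) : G →* Module.End κ (Fin 2 → κ) where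
  toFun g := Matrix.toLin' (Matrix.diagonal ![ψ g, δ g])
  map_one' := by
    have : (![ψ 1, δ 1] : Fin 2 → κ) = fun _ => 1 := by
      ext i; fin_cases i <;> simp
    rw [this, Matrix.diagonal_one, Matrix.toLin'_one]; rfl
  map_mul' g h := by
    have : (![ψ (g * h), δ (g * h)] : Fin 2 → κ) = fun i => ![ψ g, δ g] i * ![ψ h, δ h] i := by
      ext i; fin_cases i <;> simp
    rw [this, ← Matrix.diagonal_mul_diagonal, Matrix.toLin'_mul]; rfl

theorem charpoly_diagRep (ψ δ : G →* κ) (g : G) :
    (diagRep ψ δ g).charpoly = (X - C (ψ g)) * (X - C (δ g)) := by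
  change (Matrix.toLin' (Matrix.diagonal ![ψ g, δ g])).charpoly = _
  rw [Matrix.charpoly_toLin', Matrix.charpoly_diagonal, Fin.prod_univ_two]
  simp

/-- **The quadratic-relation lemma.** -/
theorem exists_rep_two [FiniteDimensional κ V] [Nontrivial V]
    (ρ : G →* Module.End κ V) (d : G →* κˣ)
    (hq' : ∀ g, ∃ t α, Rel ρ d g t ∧ α * α - t * α + ((d g : κˣ) : κ) = 0) :
    ∃ (U : Type) (_ : AddCommGroup U) (_ : Module κ U) (_ : Module.Finite κ U)
      (ρ' : G →* Module.End κ U), finrank κ U = 2 ∧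
      (∀ g t, Rel ρ d g t → (ρ' g).charpoly = X ^ 2 - C t * X + C ((d g : κˣ) : κ)) ∧
      (∀ g, ρ g = 1 → d g = 1 → ρ' g = 1) := by
  have hq : ∀ g, ∃ t, Rel ρ d g t := fun g => by
    obtain ⟨t, _, ht, _⟩ := hq' g
    exact ⟨t, ht⟩
  obtain ⟨U, hU0, hUinv, hUirr⟩ := exists_minimal_invariant ρ
  have hnt : Nontrivial U := Submodule.nontrivial_iff_ne_bot.mpr hU0
  set ρU := restr ρ U hUinv with hρU
  have hqU : ∀ g, ∃ t, Rel ρU d g t := fun g => by
    obtain ⟨t, ht⟩ := hq g
    exact ⟨t, ht.restr U hUinv⟩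
  have hirr : ∀ u : U, u ≠ 0 → Submodule.span κ (Set.range fun h => ρU h u) = ⊤ := by
    intro u hu
    apply Submodule.map_injective_of_injective U.injective_subtype
    rw [Submodule.map_span, Submodule.map_top, Submodule.range_subtype, ← Set.range_comp]
    exact hUirr u u.2 (fun h => hu (Subtype.ext h))
  have hpos : 0 < finrank κ U := Module.finrank_pos
  by_cases hall : ∀ g, IsScalar (ρU g)
  · -- the one dimensional case
    obtain ⟨u, hu⟩ := exists_ne (0 : U)
    choose ψ hψ using hall
    have hψ1 : ψ 1 = 1 := by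
      have := hψ 1 u
      rw [map_one, Module.End.one_apply] at this
      have h1 : (1 : κ) • u = ψ 1 • u := by rw [one_smul]; exact this
      exact (smul_left_injective κ hu h1).symm
    have hψm : ∀ g h, ψ (g * h) = ψ g * ψ h := by
      intro g h
      have := hψ (g * h) u
      rw [map_mul, Module.End.mul_apply, hψ h, map_smul, hψ g, smul_smul] at this
      have := smul_left_injective κ hu this
      rw [← this, mul_comm]
    let Ψ : G →* κ := { toFun := ψ, map_one' := hψ1, map_mul' := hψm }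
    have hψ0 : ∀ g, ψ g ≠ 0 := by
      intro g h0
      have := hψm g g⁻¹
      rw [mul_inv_cancel, hψ1, h0, zero_mul] at this
      exact one_ne_zero this
    let Δ : G →* κ :=
      { toFun := fun g => ((d g : κˣ) : κ) * (ψ g)⁻¹
        map_one' := by simp [hψ1]
        map_mul' := fun g h => by
          rw [map_mul, Units.val_mul, hψm, mul_inv]; ring }
    refine ⟨Fin 2 → κ, inferInstance, inferInstance, inferInstance, diagRep Ψ Δ,
      Module.finrank_fin_fun κ, ?_, ?_⟩
    · intro g t hg
      rw [charpoly_diagRep]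
      have h1 := (hg.restr U hUinv).apply u
      rw [← hρU, hψ, hψ, smul_smul, smul_smul, ← sub_smul] at h1
      have h2 := smul_left_injective κ hu h1
      have h3 : ψ g + ((d g : κˣ) : κ) * (ψ g)⁻¹ = t := by
        field_simp [hψ0 g]
        linear_combination h2
      have h4 : ψ g * (((d g : κˣ) : κ) * (ψ g)⁻¹) = ((d g : κˣ) : κ) := by
        field_simp [hψ0 g]
      change (X - C (ψ g)) * (X - C (((d g : κˣ) : κ) * (ψ g)⁻¹)) = _
      generalize ((d g : κˣ) : κ) * (ψ g)⁻¹ = b at h3 h4
      rw [← h3, ← h4]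
      simp only [map_add, map_mul]
      ring
    · intro g hg hd
      have h1 : ψ g = 1 := by
        have := hψ g u
        have h2 : ρU g u = u := by
          apply Subtype.ext
          rw [hρU, restr_apply, hg, Module.End.one_apply]
        rw [h2] at this
        have h1 : (1 : κ) • u = ψ g • u := by rw [one_smul]; exact this
        exact (smul_left_injective κ hu h1).symm
      have e1 : Ψ g = Ψ 1 := by change ψ g = ψ 1; rw [h1, hψ1]
      have e2 : Δ g = Δ 1 := by
        change ((d g : κˣ) : κ) * (ψ g)⁻¹ = ((d 1 : κˣ) : κ) * (ψ 1)⁻¹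
        rw [h1, hψ1, hd, map_one]
      rw [← map_one (diagRep Ψ Δ)]
      change Matrix.toLin' (Matrix.diagonal ![Ψ g, Δ g]) = Matrix.toLin' (Matrix.diagonal ![Ψ 1, Δ 1])
      rw [e1, e2]
  · -- the two dimensional case
    obtain ⟨g0, hg0⟩ : ∃ g, ¬ IsScalar (ρU g) := by
      by_contra hcon
      exact hall fun g => by
        by_contra h; exact hcon ⟨g, h⟩
    obtain ⟨t0, α0, ht0, hα0⟩ := hq' g0
    have hle : finrank κ U ≤ 2 :=
      finrank_le_two_of_not_isScalar hqU hirr (ht0.restr U hUinv) hα0 hg0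
    have hne1 : finrank κ U ≠ 1 := by
      intro h1
      apply hg0
      obtain ⟨u, hu⟩ := exists_ne (0 : U)
      obtain ⟨c, hc⟩ := (finrank_eq_one_iff_of_nonzero' u hu).mp h1 (ρU g0 u)
      refine ⟨c, fun x => ?_⟩
      obtain ⟨a, rfl⟩ := (finrank_eq_one_iff_of_nonzero' u hu).mp h1 x
      rw [map_smul, ← hc, smul_comm]
    have h2 : finrank κ U = 2 := by omega
    refine ⟨U, inferInstance, inferInstance, inferInstance, ρU, h2, ?_, ?_⟩
    · intro g t hg
      exact charpoly_of_irr h2 hqU hirr (hg.restr U hUinv)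
    · intro g hg _
      ext x
      rw [hρU, restr_apply, hg]; rfl

end main

end Fermat.Agent.S29.Quad
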